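import Mathlib

/-!
# S48, chapter G1 : a weight one form on `Γ₁(ℓ)` congruent to a unit modulo `1 - ζ_ℓ`

## Definitions

For `v ∈ ℤ²`, `v ≢ 0 mod ℓ` (`ℓ ≥ 5` prime) put `L(a,b) = a z + b` and

`W_v(z) = ∑_{x ∈ ℤ²} [ 1/L(v + ℓx) - 2/L(2v + ℓx) + 1/L(3v + ℓx) ]`.

The summand is a second difference, `= 2 L(v)² / (L(v+ℓx) L(2v+ℓx) L(3v+ℓx))`, so the sum converges absolutely.
Hence `W_v ∣₁ γ = W_{vγ}` for `γ ∈ SL₂(ℤ)` by reindexing.  Summing first over the second coordinate gives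
`W_v = ∑_m row_v(m)`, `row_v(m) = (π/ℓ)[κ(e₁) - 2κ(e₂) + κ(e₃)]`, `κ(e) = -i(1+e)/(1-e)` (`= cot(πx)` for
`e = exp(2πix)`), `e_i = exp(2πi L(iv + ℓ(m,0))/ℓ)`.
-/

set_option autoImplicit false

open UpperHalfPlane hiding I
open EisensteinSeries Complex
open scoped MatrixGroups ModularForm Real

noncomputable section

namespace Fermat.Agent.S48.G1

/-- `v` is not `0` modulo `ℓ`. -/
def NZ (ℓ : ℕ) (v : Fin 2 → ℤ) : Prop := ¬ ∀ j, (ℓ : ℤ) ∣ v j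

/-- the summand of `W`. -/
def term (ℓ : ℕ) (v x : Fin 2 → ℤ) (z : ℍ) : ℂ :=
  eisSummand 1 (v + (ℓ : ℤ) • x) z - 2 * eisSummand 1 ((2 : ℤ) • v + (ℓ : ℤ) • x) z
    + eisSummand 1 ((3 : ℤ) • v + (ℓ : ℤ) • x) z

/-- the second difference of the weight one Eisenstein series. -/
def W (ℓ : ℕ) (v : Fin 2 → ℤ) : ℍ → ℂ := fun z => ∑' x : Fin 2 → ℤ, term ℓ v x z

/-- `cot (π x)` as a function of `e = exp (2 π i x)`. -/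
def kap (e : ℂ) : ℂ := -I * (1 + e) / (1 - e)

/-- `exp (2 π i (w₀ z + w₁) / ℓ)`. -/
def ex (ℓ : ℕ) (w : Fin 2 → ℤ) (z : ℂ) : ℂ :=
  cexp (2 * π * I * (((w 0 : ℤ) : ℂ) * z + ((w 1 : ℤ) : ℂ)) / ℓ)

/-- the sum of `term ℓ v ![m, n]` over `n`. -/
def row (ℓ : ℕ) (v : Fin 2 → ℤ) (m : ℤ) (z : ℂ) : ℂ :=
  (π / ℓ) * (kap (ex ℓ (v + (ℓ : ℤ) • ![m, 0]) z) - 2 * kap (ex ℓ ((2 : ℤ) • v + (ℓ : ℤ) • ![m, 0]) z)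
    + kap (ex ℓ ((3 : ℤ) • v + (ℓ : ℤ) • ![m, 0]) z))

/-- `exp (2 π i / ℓ)`. -/
def zeta (ℓ : ℕ) : ℂ := cexp (2 * π * I / ℓ)

/-- `(ζ^{ak} - ζ^{-ak}) - 2 (ζ^{2ak} - ζ^{-2ak}) + (ζ^{3ak} - ζ^{-3ak})`. -/
def cc (ℓ : ℕ) (a : ℤ) (k : ℕ) : ℂ :=
  (zeta ℓ ^ (a * k) - zeta ℓ ^ (-(a * k))) - 2 * (zeta ℓ ^ (2 * a * k) - zeta ℓ ^ (-(2 * a * k)))
    + (zeta ℓ ^ (3 * a * k) - zeta ℓ ^ (-(3 * a * k)))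

/-- the `q`-coefficients of `Gf ℓ a`. -/
def cG (ℓ : ℕ) (a : ℤ) (n : ℕ) : ℂ :=
  if n = 0 then
    2 * (zeta ℓ - 1) * (1 / (zeta ℓ ^ a - 1) - 2 / (zeta ℓ ^ (2 * a) - 1) + 1 / (zeta ℓ ^ (3 * a) - 1))
  else -2 * (zeta ℓ - 1) * ∑ k ∈ n.divisors, cc ℓ a k

/-- the normalised form `(ζ - 1) (ℓ / π i) W_{(0,a)}`. -/
def Gf (ℓ : ℕ) (a : ℤ) : ℍ → ℂ := fun z => (zeta ℓ - 1) * (ℓ / (π * I)) * W ℓ ![0, a] z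

end Fermat.Agent.S48.G1

end
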