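import Fermat.Agent.S48.Defs
import Fermat.Agent.S48.G1.Defs

/-!
# S48, chapter G1, Arith : the arithmetic of the coefficients `cG ℓ a n`

For `ℓ ≥ 5` prime, `ℓ ∤ a` : `cG ℓ a n` is an algebraic integer; for every ring homomorphism `φ : ℤ̄ → K`, `char K = ℓ`:
`φ (cG ℓ a 0) * (3 a) = 2` and `φ (cG ℓ a n) = 0` for `n ≥ 1`.
-/

set_option autoImplicit false

open Complex
open scoped Real

namespace Fermat.Agent.S48.G1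

variable {ℓ : ℕ}

theorem zeta_isPrimitiveRoot (hℓ : ℓ ≠ 0) : IsPrimitiveRoot (zeta ℓ) ℓ :=
  Complex.isPrimitiveRoot_exp ℓ hℓ

theorem zeta_ne_zero (ℓ : ℕ) : zeta ℓ ≠ 0 := Complex.exp_ne_zero _

theorem zeta_zpow_pow (hℓ : ℓ ≠ 0) (b : ℤ) : (zeta ℓ ^ b) ^ ℓ = 1 := by
  rw [← zpow_natCast, ← zpow_mul, mul_comm, zpow_mul, zpow_natCast,
    (zeta_isPrimitiveRoot hℓ).pow_eq_one, one_zpow]

theorem isIntegral_of_pow_eq_one (hℓ : ℓ ≠ 0) {x : ℂ} (hx : x ^ ℓ = 1) : IsIntegral ℤ x :=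
  IsIntegral.of_pow (Nat.pos_of_ne_zero hℓ) (hx ▸ isIntegral_one)

/-- `ζ^b` as an element of `ℤ̄`. -/
noncomputable def zb (hℓ : ℓ ≠ 0) (b : ℤ) : Zb :=
  ⟨zeta ℓ ^ b, isIntegral_of_pow_eq_one hℓ (zeta_zpow_pow hℓ b)⟩

theorem coe_zb (hℓ : ℓ ≠ 0) (b : ℤ) : ((zb hℓ b : Zb) : ℂ) = zeta ℓ ^ b := rfl

theorem phi_eq_one {K : Type*} [Field K] [CharP K ℓ] (hℓ : ℓ.Prime) (φ : Zb →+* K) {y : Zb}
    (hy : y ^ ℓ = 1) : φ y = 1 := by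
  have : Fact ℓ.Prime := ⟨hℓ⟩
  have h1 : (φ y - 1) ^ ℓ = 0 := by
    rw [sub_pow_char, one_pow, ← map_pow, hy, map_one, sub_self]
  exact sub_eq_zero.1 (pow_eq_zero_iff hℓ.ne_zero |>.1 h1)

theorem phi_zb {K : Type*} [Field K] [CharP K ℓ] (hℓ : ℓ.Prime) (φ : Zb →+* K) (b : ℤ) :
    φ (zb hℓ.ne_zero b) = 1 := by
  apply phi_eq_one hℓ
  apply Subtype.ext
  have := zeta_zpow_pow hℓ.ne_zero b
  simpa [coe_zb] using this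

theorem zeta_zpow_sub_one_ne_zero (hℓ : ℓ ≠ 0) {b : ℤ} (hb : ¬ (ℓ : ℤ) ∣ b) :
    zeta ℓ ^ b - 1 ≠ 0 := by
  intro h
  exact hb (((zeta_isPrimitiveRoot hℓ).zpow_eq_one_iff_dvd b).1 (sub_eq_zero.1 h))

/-- the cyclotomic units `(ζ - 1)/(ζ^b - 1)`. -/
theorem exists_unit (hℓ : ℓ.Prime) {b : ℤ} (hb : ¬ (ℓ : ℤ) ∣ b) :
    ∃ u : Zb, (u : ℂ) = (zeta ℓ - 1) / (zeta ℓ ^ b - 1) ∧
      ∀ (K : Type) [Field K] [CharP K ℓ] (φ : Zb →+* K), φ u * (b : K) = 1 := by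
  have : Fact ℓ.Prime := ⟨hℓ⟩
  have hb0 : (b : ZMod ℓ) ≠ 0 := fun h => hb ((ZMod.intCast_zmod_eq_zero_iff_dvd b ℓ).1 h)
  set e : ℕ := ((b : ZMod ℓ)⁻¹).val with he
  have hbe : (ℓ : ℤ) ∣ b * e - 1 := by
    rw [← ZMod.intCast_zmod_eq_zero_iff_dvd]
    push_cast
    rw [he, ZMod.natCast_val, ZMod.cast_id', id, mul_inv_cancel₀ hb0, sub_self]
  have hz : (zeta ℓ ^ b) ^ e = zeta ℓ := by
    obtain ⟨k, hk⟩ := hbe
    have : b * e = 1 + ℓ * k := by linarith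
    rw [← zpow_natCast, ← zpow_mul, this, zpow_add₀ (zeta_ne_zero ℓ), zpow_one, zpow_mul,
      zpow_natCast, (zeta_isPrimitiveRoot hℓ.ne_zero).pow_eq_one, one_zpow, mul_one]
  refine ⟨∑ j ∈ Finset.range e, zb hℓ.ne_zero b ^ j, ?_, ?_⟩
  · rw [eq_div_iff (zeta_zpow_sub_one_ne_zero hℓ.ne_zero hb)]
    push_cast
    rw [coe_zb, geom_sum_mul, hz]
  · intro K _ _ φ
    rw [map_sum]
    simp only [map_pow, phi_zb hℓ φ b, one_pow, Finset.sum_const, Finset.card_range, nsmul_eq_mul,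
      mul_one]
    have h1 : ((b * e - 1 : ℤ) : K) = 0 := (CharP.intCast_eq_zero_iff K ℓ _).2 hbe
    push_cast at h1
    linear_combination h1

theorem not_dvd_two_mul (hℓ : ℓ.Prime) (h5 : 5 ≤ ℓ) {a : ℤ} (ha : ¬ (ℓ : ℤ) ∣ a) :
    ¬ (ℓ : ℤ) ∣ 2 * a := by
  intro h
  rcases (Nat.prime_iff_prime_int.1 hℓ).dvd_or_dvd h with h | h
  · have := Int.le_of_dvd (by norm_num) h
    omega
  · exact ha h

theorem not_dvd_three_mul (hℓ : ℓ.Prime) (h5 : 5 ≤ ℓ) {a : ℤ} (ha : ¬ (ℓ : ℤ) ∣ a) :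
    ¬ (ℓ : ℤ) ∣ 3 * a := by
  intro h
  rcases (Nat.prime_iff_prime_int.1 hℓ).dvd_or_dvd h with h | h
  · have := Int.le_of_dvd (by norm_num) h
    omega
  · exact ha h

/-- the constant term. -/
theorem exists_cG_zero (hℓ : ℓ.Prime) (h5 : 5 ≤ ℓ) {a : ℤ} (ha : ¬ (ℓ : ℤ) ∣ a) :
    ∃ x : Zb, (x : ℂ) = cG ℓ a 0 ∧
      ∀ (K : Type) [Field K] [CharP K ℓ] (φ : Zb →+* K), φ x * (3 * (a : K)) = 2 := by
  obtain ⟨u1, hu1, h1⟩ := exists_unit hℓ ha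
  obtain ⟨u2, hu2, h2⟩ := exists_unit hℓ (not_dvd_two_mul hℓ h5 ha)
  obtain ⟨u3, hu3, h3⟩ := exists_unit hℓ (not_dvd_three_mul hℓ h5 ha)
  refine ⟨2 * (u1 - 2 * u2 + u3), ?_, ?_⟩
  · have h2c : ((2 : Zb) : ℂ) = 2 := rfl
    push_cast
    rw [hu1, hu2, hu3, cG, if_pos rfl, h2c]
    ring
  · intro K _ _ φ
    have e1 := h1 K φ
    have e2 := h2 K φ
    have e3 := h3 K φ
    push_cast at e2 e3
    simp only [map_mul, map_add, map_sub, map_ofNat]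
    linear_combination 6 * e1 - 6 * e2 + 2 * e3

/-- the higher terms. -/
theorem exists_cG_pos (hℓ : ℓ.Prime) (a : ℤ) {n : ℕ} (hn : n ≠ 0) :
    ∃ x : Zb, (x : ℂ) = cG ℓ a n ∧
      ∀ (K : Type) [Field K] [CharP K ℓ] (φ : Zb →+* K), φ x = 0 := by
  have h0 := hℓ.ne_zero
  refine ⟨-2 * (zb h0 1 - 1) * ∑ k ∈ n.divisors,
    ((zb h0 (a * k) - zb h0 (-(a * k))) - 2 * (zb h0 (2 * a * k) - zb h0 (-(2 * a * k)))
      + (zb h0 (3 * a * k) - zb h0 (-(3 * a * k)))), ?_, ?_⟩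
  · push_cast
    simp only [coe_zb, zpow_one]
    rw [cG, if_neg hn]
    rfl
  · intro K _ _ φ
    rw [map_mul, map_mul, map_sub, phi_zb hℓ φ 1, map_one, sub_self, mul_zero, zero_mul]

theorem isIntegral_cG (hℓ : ℓ.Prime) (h5 : 5 ≤ ℓ) {a : ℤ} (ha : ¬ (ℓ : ℤ) ∣ a) (n : ℕ) :
    IsIntegral ℤ (cG ℓ a n) := by
  rcases eq_or_ne n 0 with rfl | hn
  · obtain ⟨x, hx, -⟩ := exists_cG_zero hℓ h5 ha
    exact hx ▸ x.2
  · obtain ⟨x, hx, -⟩ := exists_cG_pos hℓ a hn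
    exact hx ▸ x.2

theorem phi_cG_zero (hℓ : ℓ.Prime) (h5 : 5 ≤ ℓ) {a : ℤ} (ha : ¬ (ℓ : ℤ) ∣ a)
    {K : Type} [Field K] [CharP K ℓ] (φ : Zb →+* K) {x : Zb} (hx : (x : ℂ) = cG ℓ a 0) :
    φ x * (3 * (a : K)) = 2 := by
  obtain ⟨y, hy, h⟩ := exists_cG_zero hℓ h5 ha
  have : x = y := Subtype.ext (hx.trans hy.symm)
  exact this ▸ h K φ

theorem phi_cG_pos (hℓ : ℓ.Prime) (a : ℤ) {n : ℕ} (hn : n ≠ 0)
    {K : Type} [Field K] [CharP K ℓ] (φ : Zb →+* K) {x : Zb} (hx : (x : ℂ) = cG ℓ a n) :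
    φ x = 0 := by
  obtain ⟨y, hy, h⟩ := exists_cG_pos hℓ a hn
  have : x = y := Subtype.ext (hx.trans hy.symm)
  exact this ▸ h K φ

end Fermat.Agent.S48.G1
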