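import Fermat.Agent.S48.G1.Prod
import Fermat.Agent.S48.G1.Arith
import Fermat.Agent.S48.W1.Model

/-!
# S48 / G1 : the reduction of the product `D g G₁` modulo `φ`

`φ : ℤ̄ → K`, `char K = ℓ`.  `cK n = φ(D a_n(g)) * (2/3)`, `delta u = φ(ε(u)) / u`, `aK r = φ(a_r(g))`.
* `cong_prod` : `RHO.Cong (coL) (formD) φ delta cK h 1` for `h = D g G₁`;
* `eigRel_prod` : `RHO.EigRel (N ℓ) ℓ delta cK aK`;
* `cK_one_ne_zero`.
-/

set_option autoImplicit false

open UpperHalfPlane hiding I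
open Complex CongruenceSubgroup ModularForm
open Fermat.Agent.S48.W1 (lr HasChar)
open scoped MatrixGroups ModularForm Manifold

noncomputable section

namespace Fermat.Agent.S48.G1

open Classical in
/-- a complex number as an element of `ℤ̄` (junk value `0`). -/
def aZ (x : ℂ) : Zb := if h : IsIntegral ℤ x then ⟨x, h⟩ else 0

theorem coe_aZ {x : ℂ} (h : IsIntegral ℤ x) : ((aZ x : Zb) : ℂ) = x := by
  rw [aZ, dif_pos h]

theorem aZ_coe (x : Zb) : aZ (x : ℂ) = x := Subtype.ext (coe_aZ x.2)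

/-- the character with values in `ℤ̄`. -/
def epsZ {N : ℕ} [NeZero N] (ε : DirichletCharacter ℂ N) : ZMod N →* Zb where
  toFun a := ⟨ε a, W1.isIntegral_eps ε a⟩
  map_one' := Subtype.ext (map_one ε)
  map_mul' a b := Subtype.ext (map_mul ε a b)

theorem coe_epsZ {N : ℕ} [NeZero N] (ε : DirichletCharacter ℂ N) (a : ZMod N) :
    ((epsZ ε a : Zb) : ℂ) = ε a := rfl

section

variable {N : ℕ} [NeZero N] (ε : DirichletCharacter ℂ N) (ℓ : ℕ) {K : Type} [Field K] [CharP K ℓ]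
  (φ : Zb →+* K)

/-- `u ↦ φ(ε(u))`. -/
def delta1 : (ZMod (N * ℓ))ˣ →* Kˣ :=
  Units.map (((φ : Zb →* K).comp (epsZ ε)).comp
    ((ZMod.castHom (Dvd.intro ℓ rfl : N ∣ N * ℓ) (ZMod N) : ZMod (N * ℓ) →+* ZMod N) :
      ZMod (N * ℓ) →* ZMod N))

/-- `u ↦ u`. -/
def delta2 : (ZMod (N * ℓ))ˣ →* Kˣ :=
  Units.map ((ZMod.castHom (Dvd.intro_left N rfl : ℓ ∣ N * ℓ) K : ZMod (N * ℓ) →+* K) :
    ZMod (N * ℓ) →* K)

/-- the nebentypus of the product modulo `φ`: `u ↦ φ(ε(u)) / u`. -/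
def delta : (ZMod (N * ℓ))ˣ →* Kˣ := delta1 ε ℓ φ * (delta2 (N := N) ℓ (K := K))⁻¹

theorem coe_delta1 (u : (ZMod (N * ℓ))ˣ) {e : ℤ} (he : (e : ZMod (N * ℓ)) = u) :
    ((delta1 ε ℓ φ u : Kˣ) : K) = φ (epsZ ε (e : ZMod N)) := by
  simp only [delta1, Units.coe_map, MonoidHom.coe_comp, MonoidHom.coe_coe, Function.comp_apply]
  rw [← he, map_intCast]

theorem coe_delta2 (u : (ZMod (N * ℓ))ˣ) {e : ℤ} (he : (e : ZMod (N * ℓ)) = u) :
    ((delta2 (N := N) ℓ (K := K) u : Kˣ) : K) = (e : K) := by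
  simp only [delta2, Units.coe_map, MonoidHom.coe_coe]
  rw [← he, map_intCast]

theorem coe_delta (u : (ZMod (N * ℓ))ˣ) {e : ℤ} (he : (e : ZMod (N * ℓ)) = u) :
    ((delta ε ℓ φ u : Kˣ) : K) = φ (epsZ ε (e : ZMod N)) * (e : K)⁻¹ := by
  rw [delta, MonoidHom.mul_apply, MonoidHom.inv_apply, Units.val_mul, Units.val_inv_eq_inv_val,
    coe_delta1 ε ℓ φ u he, coe_delta2 ℓ u he]

theorem cast_ne_zero_of_unit (u : (ZMod (N * ℓ))ˣ) {e : ℤ} (he : (e : ZMod (N * ℓ)) = u) :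
    (e : K) ≠ 0 := by
  rw [← coe_delta2 (N := N) ℓ (K := K) u he]
  exact Units.ne_zero _

include φ in
theorem not_dvd_of_unit (u : (ZMod (N * ℓ))ˣ) {e : ℤ} (he : (e : ZMod (N * ℓ)) = u) :
    ¬ (ℓ : ℤ) ∣ e := by
  intro h
  apply cast_ne_zero_of_unit (N := N) ℓ (K := K) u he
  exact (CharP.intCast_eq_zero_iff K ℓ e).mpr h

end

section

variable {N : ℕ} [NeZero N] {ε : DirichletCharacter ℂ N} {ℓ : ℕ} {K : Type} [Field K] [CharP K ℓ]
  (φ : Zb →+* K)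

/-- the mod `ℓ` form. -/
def cK (D : ℕ) (g : ℍ → ℂ) (n : ℕ) : K :=
  φ (aZ ((D : ℂ) * ModularFormClass.qCoeff g n)) * (2 * 3⁻¹)

/-- its eigenvalues. -/
def aK (g : ℍ → ℂ) (r : ℕ) : K := φ (aZ (ModularFormClass.qCoeff g r))

theorem natCast_ne_zero_of_lt (hℓ : ℓ.Prime) {m : ℕ} (h0 : m ≠ 0) (h : m < ℓ) : (m : K) ≠ 0 := by
  intro h1
  have := (CharP.cast_eq_zero_iff K ℓ m).mp h1
  exact absurd (Nat.le_of_dvd (Nat.pos_of_ne_zero h0) this) (not_le.mpr h)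

theorem cK_one_ne_zero (hℓ : ℓ.Prime) (h5 : 5 ≤ ℓ) {D : ℕ} (hD : D ≠ 0) (hDℓ : D < ℓ) {g : ℍ → ℂ}
    (h1 : ModularFormClass.qCoeff g 1 = 1) : cK φ D g 1 ≠ 0 := by
  have e : aZ ((D : ℂ) * ModularFormClass.qCoeff g 1) = (D : Zb) := by
    rw [h1, mul_one]
    have : ((D : Zb) : ℂ) = (D : ℂ) := by simp
    rw [← this, aZ_coe]
  rw [cK, e, map_natCast]
  have h2 : (2 : K) ≠ 0 := by
    have := natCast_ne_zero_of_lt (K := K) hℓ (m := 2) (by norm_num) (by omega)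
    exact_mod_cast this
  have h3 : (3 : K) ≠ 0 := by
    have := natCast_ne_zero_of_lt (K := K) hℓ (m := 3) (by norm_num) (by omega)
    exact_mod_cast this
  exact mul_ne_zero (natCast_ne_zero_of_lt hℓ hD hDℓ) (mul_ne_zero h2 (inv_ne_zero h3))

theorem eigRel_prod (hℓ : ℓ.Prime) {g : CuspForm (Gamma1 N) 1} (hg : IsEigen N ε g) {D : ℕ}
    (hint : ∀ n, IsIntegral ℤ ((D : ℂ) * ModularFormClass.qCoeff g n)) :
    RHO.EigRel (N * ℓ) ℓ (delta ε ℓ φ) (cK φ D g) (aK φ g) := by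
  intro r hr u hu n
  have hrN : ¬ r ∣ N := fun h => hr.2 ((h.mul_right ℓ).mul_right ℓ)
  have hrℓ : ¬ ℓ ∣ r := by
    intro h
    have : ℓ = r := (Nat.prime_dvd_prime_iff_eq hℓ hr.1).mp h
    exact hr.2 (this ▸ Dvd.intro_left _ rfl)
  have hrK : (r : K) ≠ 0 := fun h => hrℓ ((CharP.cast_eq_zero_iff K ℓ r).mp h)
  have he : (((r : ℕ) : ℤ) : ZMod (N * ℓ)) = u := by rw [hu]; simp
  have hδ := coe_delta ε ℓ φ u he
  have hrel := hg.rel r hr.1 hrN n
  have har := W1.isIntegral_coeff' hg hr.1 hrN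
  -- the relation in `ℤ̄`
  have hZ : aZ ((D : ℂ) * ModularFormClass.qCoeff g (r * n)) +
      epsZ ε (r : ZMod N) * (if r ∣ n then aZ ((D : ℂ) * ModularFormClass.qCoeff g (n / r)) else 0)
      = aZ (ModularFormClass.qCoeff g r) * aZ ((D : ℂ) * ModularFormClass.qCoeff g n) := by
    apply Subtype.ext
    push_cast
    rw [coe_aZ (hint _), coe_aZ har, coe_aZ (hint _), coe_epsZ]
    split_ifs with h
    · rw [if_pos h] at hrel
      rw [coe_aZ (hint _)]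
      linear_combination (D : ℂ) * hrel
    · rw [if_neg h] at hrel
      push_cast
      linear_combination (D : ℂ) * hrel
  have hK := congrArg φ hZ
  rw [map_add, map_mul, map_mul] at hK
  simp only [cK, aK]
  rw [hδ]
  have e1 : (((r : ℕ) : ℤ) : ZMod N) = (r : ZMod N) := by simp
  have e2 : (((r : ℕ) : ℤ) : K) = (r : K) := by simp
  rw [e1, e2]
  have hr' : (r : K) * (φ (epsZ ε (r : ZMod N)) * (r : K)⁻¹) = φ (epsZ ε (r : ZMod N)) := by
    field_simp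
  rw [hr']
  split_ifs with h
  · rw [if_pos h] at hK
    linear_combination (2 * 3⁻¹ : K) * hK
  · rw [if_neg h, map_zero] at hK
    linear_combination (2 * 3⁻¹ : K) * hK

/-- the congruence for the product. -/
theorem cong_prod [NeZero (N * ℓ)] (hℓ : ℓ.Prime) (h5 : 5 ≤ ℓ) {g : CuspForm (Gamma1 N) 1}
    (hχ : HasChar N 1 ε g) {D : ℕ}
    (hint : ∀ n, IsIntegral ℤ ((D : ℂ) * ModularFormClass.qCoeff g n))
    (Γ : Subgroup SL(2, ℤ)) [PER1.IsMid (N * ℓ) Γ] {h : CuspForm Γ 2} (hh : ⇑h = pf D g ℓ 1) :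
    RHO.Cong (PER1.coL (N * ℓ) Γ) (PER1.formD (N * ℓ) Γ) φ (delta ε ℓ φ) (cK φ D g) h 1 := by
  intro u n
  have h1 : ¬ (ℓ : ℤ) ∣ 1 := by
    intro h
    have := Int.le_of_dvd one_pos h
    omega
  obtain ⟨e, he⟩ : ∃ e : ℤ, (e : ZMod (N * ℓ)) = u :=
    ⟨((u : ZMod (N * ℓ)).val : ℤ), by simp⟩
  have heℓ : ¬ (ℓ : ℤ) ∣ e := not_dvd_of_unit (N := N) ℓ φ u he
  have heK : (e : K) ≠ 0 := cast_ne_zero_of_unit (N := N) ℓ u he
  have hF := formD_prod hℓ h5 g hχ D h1 Γ hh u he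
  rw [one_mul] at hF
  have hco : PER1.coL (N * ℓ) Γ n (PER1.formD (N * ℓ) Γ u h) =
      ε (e : ZMod N) * ((D : ℂ) * ∑ x ∈ Finset.HasAntidiagonal.antidiagonal n,
        ModularFormClass.qCoeff g x.1 * cG ℓ e x.2) := by
    rw [PER1.coL_apply, hF, W1.qCoeff_smul (pf_isNice hℓ h5 g D heℓ), qCoeff_pf hℓ h5 g D heℓ]
  refine ⟨epsZ ε (e : ZMod N) * ∑ x ∈ Finset.HasAntidiagonal.antidiagonal n,
    aZ ((D : ℂ) * ModularFormClass.qCoeff g x.1) * aZ (cG ℓ e x.2), ?_, ?_⟩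
  · rw [hco]
    have e1 : ((∑ x ∈ Finset.HasAntidiagonal.antidiagonal n,
        aZ ((D : ℂ) * ModularFormClass.qCoeff g x.1) * aZ (cG ℓ e x.2) : Zb) : ℂ)
        = (D : ℂ) * ∑ x ∈ Finset.HasAntidiagonal.antidiagonal n,
          ModularFormClass.qCoeff g x.1 * cG ℓ e x.2 := by
      rw [Finset.mul_sum]
      push_cast
      refine Finset.sum_congr rfl (fun x _ => ?_)
      rw [coe_aZ (hint _), coe_aZ (isIntegral_cG hℓ h5 heℓ _)]
      ring
    rw [← e1]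
    push_cast
    rw [coe_epsZ]
  · rw [map_mul, map_sum, coe_delta ε ℓ φ u he, cK]
    have hsum : ∑ x ∈ Finset.HasAntidiagonal.antidiagonal n,
        φ (aZ ((D : ℂ) * ModularFormClass.qCoeff g x.1) * aZ (cG ℓ e x.2))
        = φ (aZ ((D : ℂ) * ModularFormClass.qCoeff g n)) * φ (aZ (cG ℓ e 0)) := by
      rw [Finset.sum_eq_single (n, 0)]
      · rw [map_mul]
      · intro x hx hne
        have hx2 : x.2 ≠ 0 := by
          intro h0
          apply hne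
          rw [Finset.HasAntidiagonal.mem_antidiagonal] at hx
          ext
          · simp only; omega
          · exact h0
        rw [map_mul, phi_cG_pos hℓ e hx2 φ (coe_aZ (isIntegral_cG hℓ h5 heℓ _)), mul_zero]
      · intro hn
        exact absurd (by simp) hn
    rw [hsum]
    have h0 := phi_cG_zero hℓ h5 heℓ φ (coe_aZ (isIntegral_cG hℓ h5 heℓ 0))
    have h3 : (3 : K) ≠ 0 := by
      have := natCast_ne_zero_of_lt (K := K) hℓ (m := 3) (by norm_num) (by omega)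
      exact_mod_cast this
    field_simp
    linear_combination φ (epsZ ε (e : ZMod N)) * φ (aZ ((D : ℂ) * ModularFormClass.qCoeff g n)) * h0

end

end Fermat.Agent.S48.G1

end
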