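import Fermat.Agent.S48.G1.Defs

/-!
# G1-Cot (Mathlib only) : the cotangent series for a second difference

* `kap_exp` : `Complex.cot_pi_eq_exp_ratio` + `1/I = -I`.
* `tsum_three` : `tsum_int_eq_zero_add_tsum_pnat hs`, then `∑_{ℕ+} f n + ∑_{ℕ+} f (-n) = ∑_{ℕ+} (f n + f (-n))`
  (both summable: restrict `hs`), `f n + f (-n) = c₁ n - 2 c₂ n + c₃ n` with `c_i n = 1/(x_i - n) + 1/(x_i + n)`, each summable
  over `ℕ+` (`summable_cotTerm`, see the proof of `cot_series_rep` / `aux_tsum_identity_2` in Mathlib's E2/Summable), split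
  the `tsum` and use `cot_series_rep`.
-/

set_option autoImplicit false

open UpperHalfPlane hiding I
open EisensteinSeries Complex CongruenceSubgroup
open scoped MatrixGroups ModularForm Real Manifold

noncomputable section

namespace Fermat.Agent.S48.G1

local notation "ℂ_ℤ" => integerComplement

theorem kap_exp (x : ℂ) : kap (cexp (2 * π * I * x)) = Complex.cot (π * x) := by
  rw [Complex.cot_pi_eq_exp_ratio, kap]
  by_cases h : 1 - cexp (2 * π * I * x) = 0
  · rw [h, mul_zero, div_zero, div_zero]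
  · have hI : I ≠ 0 := I_ne_zero
    rw [div_eq_div_iff h (mul_ne_zero hI h)]
    have hI2 : I * I = -1 := I_mul_I
    linear_combination (-(1 + cexp (2 * π * I * x)) * (1 - cexp (2 * π * I * x))) * hI2

theorem tsum_three {x₁ x₂ x₃ : ℂ} (h₁ : x₁ ∈ ℂ_ℤ) (h₂ : x₂ ∈ ℂ_ℤ) (h₃ : x₃ ∈ ℂ_ℤ)
    (hs : Summable fun n : ℤ => 1 / (x₁ + n) - 2 * (1 / (x₂ + n)) + 1 / (x₃ + n)) :
    ∑' n : ℤ, (1 / (x₁ + n) - 2 * (1 / (x₂ + n)) + 1 / (x₃ + n)) =
      π * Complex.cot (π * x₁) - 2 * (π * Complex.cot (π * x₂)) + π * Complex.cot (π * x₃) := by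
  set f : ℤ → ℂ := fun n => 1 / (x₁ + n) - 2 * (1 / (x₂ + n)) + 1 / (x₃ + n) with hf
  have hinj1 : Function.Injective fun n : ℕ => ((n : ℤ) + 1) := by
    intro a b hab
    have : (a : ℤ) = b := by simpa using hab
    exact_mod_cast this
  have hinj2 : Function.Injective fun n : ℕ => (-((n : ℤ) + 1)) := by
    intro a b hab
    have : (a : ℤ) = b := by simpa using hab
    exact_mod_cast this
  have hs1 : Summable fun n : ℕ => f ((n : ℤ) + 1) := hs.comp_injective hinj1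
  have hs2 : Summable fun n : ℕ => f (-((n : ℤ) + 1)) := hs.comp_injective hinj2
  have c1 := summable_cotTerm h₁
  have c2 := summable_cotTerm h₂
  have c3 := summable_cotTerm h₃
  have r1 := cot_series_rep' h₁
  have r2 := cot_series_rep' h₂
  have r3 := cot_series_rep' h₃
  have key : ∀ n : ℕ, f ((n : ℤ) + 1) + f (-((n : ℤ) + 1)) =
      cotTerm x₁ n - 2 * cotTerm x₂ n + cotTerm x₃ n := by
    intro n
    simp only [hf, cotTerm]
    push_cast
    ring
  have e0 : f 0 = 1 / x₁ - 2 * (1 / x₂) + 1 / x₃ := by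
    simp only [hf, Int.cast_zero, add_zero]
  calc ∑' n : ℤ, f n = (∑' n : ℕ, f ((n : ℤ) + 1)) + f 0 + ∑' n : ℕ, f (-((n : ℤ) + 1)) :=
        tsum_of_add_one_of_neg_add_one hs1 hs2
    _ = f 0 + ∑' n : ℕ, (f ((n : ℤ) + 1) + f (-((n : ℤ) + 1))) := by
        rw [hs1.tsum_add hs2]; ring
    _ = f 0 + ∑' n : ℕ, (cotTerm x₁ n - 2 * cotTerm x₂ n + cotTerm x₃ n) := by
        rw [tsum_congr key]
    _ = f 0 + ((∑' n : ℕ, cotTerm x₁ n) - 2 * (∑' n : ℕ, cotTerm x₂ n) +
          ∑' n : ℕ, cotTerm x₃ n) := by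
        rw [(c1.sub (c2.mul_left 2)).tsum_add c3, c1.tsum_sub (c2.mul_left 2), tsum_mul_left]
    _ = _ := by
        have r1' : ∑' n : ℕ, cotTerm x₁ n = π * Complex.cot (π * x₁) - 1 / x₁ := r1.symm
        have r2' : ∑' n : ℕ, cotTerm x₂ n = π * Complex.cot (π * x₂) - 1 / x₂ := r2.symm
        have r3' : ∑' n : ℕ, cotTerm x₃ n = π * Complex.cot (π * x₃) - 1 / x₃ := r3.symm
        rw [r1', r2', r3', e0]
        ring

end Fermat.Agent.S48.G1

end
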