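import Fermat.Agent.S48.G1.Main
import Fermat.Agent.S48.PER1.GamInst

/-!
# S48 / G1 : Theorem A' from the Kummer systems of the groups `T24.Gam M` (`D = M`, i.e. `±Γ₁(M)`)

`exists_residual_of H hf` is VERBATIM the conclusion of `S48.exists_residual`; `H` is the output of the geometric chapters
(`GES1/System.lean`).
-/

set_option autoImplicit false

open CongruenceSubgroup
open scoped MatrixGroups

namespace Fermat.Agent.S48.G1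

theorem exists_residual_of
    (H : ∀ (M ℓ : ℕ) [NeZero M] [T24.Cond M], ℓ.Prime →
      Nonempty (RHO.Kummer1 M ℓ (PER1.formT M (T24.Gam M)) (PER1.formD M (T24.Gam M))))
    {N : ℕ} [NeZero N] {ε : DirichletCharacter ℂ N} {f : CuspForm (Gamma1 N) 1}
    (hf : IsEigen N ε f) :
    ∃ ℓ₀ : ℕ, ∀ ℓ : ℕ, ℓ.Prime → ℓ₀ ≤ ℓ → ∀ (K : Type) [Field K] [IsAlgClosed K] [CharP K ℓ]
      (φ : Zb →+* K),
      ∃ ρ : GQ →* GL (Fin 2) K, IsResidual N ε f ℓ φ ρ := by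
  obtain ⟨ℓ₀, h⟩ := residual_of_kummer hf
  refine ⟨ℓ₀, fun ℓ hℓ hℓ₀ K _ _ _ φ => ?_⟩
  have : NeZero (N * ℓ) := ⟨mul_ne_zero (NeZero.ne N) hℓ.ne_zero⟩
  letI : T24.Cond (N * ℓ) := ⟨N * ℓ, dvd_rfl⟩
  obtain ⟨𝒦⟩ := H (N * ℓ) ℓ hℓ
  exact h ℓ hℓ hℓ₀ (T24.Gam (N * ℓ)) (fun γ hγ => hγ.2) 𝒦 K φ

end Fermat.Agent.S48.G1
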