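import Fermat.Agent.S48.G1.KapBound

/-!
# G1-RowBound : a summable majorant of the rows, uniform on `δ ≤ Im z`

`j_i = i v₀ + ℓ m`, `b_i = i v₁`, `K_i` from `kap_ex_bound`, `s_i = sign j_i`:
`κ₁ - 2κ₂ + κ₃ = (κ₁ + i s₁) - 2(κ₂ + i s₂) + (κ₃ + i s₃) - i (s₁ - 2 s₂ + s₃)`, so
`B m = (π/ℓ) (K₁ ρ^{|j₁|} + 2 K₂ ρ^{|j₂|} + K₃ ρ^{|j₃|} + |s₁ - 2 s₂ + s₃|)`.
`∑_{j ∈ ℤ} ρ^{|j|}` is summable (`summable_int_iff_summable_nat_and_neg`, geometric), compose with the injective `m ↦ i v₀ + ℓ m`;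
`s₁ - 2 s₂ + s₃ = 0` for `|m| > 3 |v₀|` (all three signs equal `sign m`): `summable_of_finite_support` /
`summable_of_ne_finset_zero` with `Finset.Icc (-(3|v₀|)) (3|v₀|)`.
-/

set_option autoImplicit false

open UpperHalfPlane hiding I
open EisensteinSeries Complex CongruenceSubgroup
open scoped MatrixGroups ModularForm Real Manifold

noncomputable section

namespace Fermat.Agent.S48.G1

local notation "ℂ_ℤ" => integerComplement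

theorem summable_pow_natAbs {ρ : ℝ} (h0 : 0 ≤ ρ) (h1 : ρ < 1) :
    Summable fun j : ℤ => ρ ^ j.natAbs := by
  rw [summable_int_iff_summable_nat_and_neg]
  constructor
  · simpa using summable_geometric_of_lt_one h0 h1
  · simpa using summable_geometric_of_lt_one h0 h1

theorem summable_pow_natAbs_comp {ρ : ℝ} (h0 : 0 ≤ ρ) (h1 : ρ < 1) {ℓ : ℕ} (hℓ : ℓ ≠ 0) (c : ℤ) :
    Summable fun m : ℤ => ρ ^ (c + (ℓ : ℤ) * m).natAbs := by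
  have hinj : Function.Injective fun m : ℤ => c + (ℓ : ℤ) * m := by
    intro m m' h
    have h2 : (ℓ : ℤ) * m = (ℓ : ℤ) * m' := by simpa using h
    exact mul_left_cancel₀ (by exact_mod_cast hℓ) h2
  exact (summable_pow_natAbs h0 h1).comp_injective hinj

theorem sign_add_mul {ℓ : ℕ} (hℓ : ℓ ≠ 0) {c m : ℤ} (h : |c| < |m|) :
    Int.sign (c + (ℓ : ℤ) * m) = Int.sign m := by
  have hℓ' : (1 : ℤ) ≤ ℓ := by exact_mod_cast Nat.pos_of_ne_zero hℓ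
  rcases lt_trichotomy m 0 with hm | hm | hm
  · rw [Int.sign_eq_neg_one_of_neg hm, Int.sign_eq_neg_one_of_neg]
    rw [abs_of_neg hm] at h
    have := (abs_lt.mp h).2
    nlinarith
  · subst hm
    simp at h
    exact absurd h (not_lt.mpr (abs_nonneg c))
  · rw [Int.sign_eq_one_of_pos hm, Int.sign_eq_one_of_pos]
    rw [abs_of_pos hm] at h
    have := (abs_lt.mp h).1
    nlinarith

theorem summable_sign {ℓ : ℕ} (hℓ : ℓ ≠ 0) (c : ℤ) :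
    Summable fun m : ℤ => ‖(I * ((Int.sign (c + (ℓ : ℤ) * m) : ℤ) : ℂ)
      - 2 * (I * ((Int.sign (2 * c + (ℓ : ℤ) * m) : ℤ) : ℂ))
      + I * ((Int.sign (3 * c + (ℓ : ℤ) * m) : ℤ) : ℂ))‖ := by
  apply summable_of_ne_finset_zero (s := Finset.Icc (-(3 * |c|)) (3 * |c|))
  intro m hm
  have hm' : 3 * |c| < |m| := by
    by_contra hcon
    apply hm
    rw [Finset.mem_Icc, ← abs_le]
    exact not_lt.mp hcon
  have hc := abs_nonneg c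
  rw [sign_add_mul hℓ (by linarith), sign_add_mul hℓ (by rw [abs_mul]; norm_num; linarith),
    sign_add_mul hℓ (by rw [abs_mul]; norm_num; linarith)]
  rw [norm_eq_zero]
  ring

theorem row_bound {ℓ : ℕ} (hℓ : ℓ ≠ 0) (v : Fin 2 → ℤ) {δ : ℝ} (hδ : 0 < δ) :
    ∃ B : ℤ → ℝ, Summable B ∧ ∀ (m : ℤ) (z : ℂ), δ ≤ z.im → ‖row ℓ v m z‖ ≤ B m := by
  have hℓ' : (0 : ℝ) < ℓ := by exact_mod_cast Nat.pos_of_ne_zero hℓ
  obtain ⟨K1, hK1⟩ := kap_ex_bound hℓ (v 1) hδ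
  obtain ⟨K2, hK2⟩ := kap_ex_bound hℓ (2 * v 1) hδ
  obtain ⟨K3, hK3⟩ := kap_ex_bound hℓ (3 * v 1) hδ
  set ρ : ℝ := Real.exp (-2 * π * δ / ℓ) with hρ
  have hρ1 : ρ < 1 := by
    rw [hρ, Real.exp_lt_one_iff]
    have : 0 < 2 * π * δ / ℓ := by positivity
    have e : -2 * π * δ / ℓ = -(2 * π * δ / ℓ) := by ring
    rw [e]
    linarith
  have hρ0 : 0 < ρ := Real.exp_pos _
  refine ⟨fun m => (π / ℓ) * (K1 * ρ ^ (v 0 + (ℓ : ℤ) * m).natAbs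
      + 2 * (K2 * ρ ^ (2 * v 0 + (ℓ : ℤ) * m).natAbs) + K3 * ρ ^ (3 * v 0 + (ℓ : ℤ) * m).natAbs
      + ‖(I * ((Int.sign (v 0 + (ℓ : ℤ) * m) : ℤ) : ℂ)
      - 2 * (I * ((Int.sign (2 * v 0 + (ℓ : ℤ) * m) : ℤ) : ℂ))
      + I * ((Int.sign (3 * v 0 + (ℓ : ℤ) * m) : ℤ) : ℂ))‖), ?_, ?_⟩
  · apply Summable.mul_left
    exact (((summable_pow_natAbs_comp hρ0.le hρ1 hℓ _).mul_left K1).add
      (((summable_pow_natAbs_comp hρ0.le hρ1 hℓ _).mul_left K2).mul_left 2)).add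
      ((summable_pow_natAbs_comp hρ0.le hρ1 hℓ _).mul_left K3) |>.add (summable_sign hℓ (v 0))
  · intro m z hz
    have a1 : (v + (ℓ : ℤ) • ![m, 0]) 0 = v 0 + (ℓ : ℤ) * m := by simp
    have a2 : ((2 : ℤ) • v + (ℓ : ℤ) • ![m, 0]) 0 = 2 * v 0 + (ℓ : ℤ) * m := by simp
    have a3 : ((3 : ℤ) • v + (ℓ : ℤ) • ![m, 0]) 0 = 3 * v 0 + (ℓ : ℤ) * m := by simp
    have b1 : (v + (ℓ : ℤ) • ![m, 0]) 1 = v 1 := by simp
    have b2 : ((2 : ℤ) • v + (ℓ : ℤ) • ![m, 0]) 1 = 2 * v 1 := by simp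
    have b3 : ((3 : ℤ) • v + (ℓ : ℤ) • ![m, 0]) 1 = 3 * v 1 := by simp
    have h1 := hK1 _ b1 z hz
    have h2 := hK2 _ b2 z hz
    have h3 := hK3 _ b3 z hz
    rw [a1] at h1
    rw [a2] at h2
    rw [a3] at h3
    unfold row
    rw [norm_mul]
    have hπ : ‖((π : ℂ) / ℓ)‖ = π / ℓ := by
      rw [norm_div, Complex.norm_real, Complex.norm_natCast, Real.norm_eq_abs,
        abs_of_pos Real.pi_pos]
    rw [hπ]
    apply mul_le_mul_of_nonneg_left _ (by positivity)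
    set κ1 := kap (ex ℓ (v + (ℓ : ℤ) • ![m, 0]) z)
    set κ2 := kap (ex ℓ ((2 : ℤ) • v + (ℓ : ℤ) • ![m, 0]) z)
    set κ3 := kap (ex ℓ ((3 : ℤ) • v + (ℓ : ℤ) • ![m, 0]) z)
    set s1 := I * ((Int.sign (v 0 + (ℓ : ℤ) * m) : ℤ) : ℂ)
    set s2 := I * ((Int.sign (2 * v 0 + (ℓ : ℤ) * m) : ℤ) : ℂ)
    set s3 := I * ((Int.sign (3 * v 0 + (ℓ : ℤ) * m) : ℤ) : ℂ)
    have e : κ1 - 2 * κ2 + κ3 = (κ1 + s1) - 2 * (κ2 + s2) + (κ3 + s3) - (s1 - 2 * s2 + s3) := by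
      ring
    rw [e]
    calc ‖(κ1 + s1) - 2 * (κ2 + s2) + (κ3 + s3) - (s1 - 2 * s2 + s3)‖
        ≤ ‖(κ1 + s1) - 2 * (κ2 + s2) + (κ3 + s3)‖ + ‖s1 - 2 * s2 + s3‖ := norm_sub_le _ _
      _ ≤ (‖(κ1 + s1) - 2 * (κ2 + s2)‖ + ‖κ3 + s3‖) + ‖s1 - 2 * s2 + s3‖ := by
          gcongr
          exact norm_add_le _ _
      _ ≤ ((‖κ1 + s1‖ + ‖2 * (κ2 + s2)‖) + ‖κ3 + s3‖) + ‖s1 - 2 * s2 + s3‖ := by
          gcongr
          exact norm_sub_le _ _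
      _ ≤ _ := by
          rw [norm_mul, Complex.norm_ofNat]
          gcongr

end Fermat.Agent.S48.G1

end
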