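import Fermat.Agent.S48.G1.Row
import Fermat.Agent.S48.G1.RowBound

/-!
# G1-Holo : `W_v` is holomorphic on `ℍ` and bounded at `i∞`

* `W_bdd` : `UpperHalfPlane.isBoundedAtImInfty_iff`, `W_eq_tsum_row`, `row_bound` (`δ = 1`), `tsum_of_norm_bounded`.
* `row_differentiableOn` : `kap ∘ ex` is a quotient of differentiable functions; `1 - ex ℓ w z ≠ 0` for `NZ ℓ w`, `0 < Im z`
  (`Complex.exp_eq_one_iff` + `NZ.mem_integerComplement`).
* `W_mdiff` : `UpperHalfPlane.mdifferentiable_iff`; at `z₀` work on the open set `{Im z₀ / 2 < Im z}` :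
  `differentiableOn_tsum_of_summable_norm` with `row_bound` (`δ = Im z₀/2`); `W ℓ v ∘ ofComplex = ∑' m, row ℓ v m ·` there.
-/

set_option autoImplicit false

open UpperHalfPlane hiding I
open EisensteinSeries Complex CongruenceSubgroup
open scoped MatrixGroups ModularForm Real Manifold

noncomputable section

namespace Fermat.Agent.S48.G1

local notation "ℂ_ℤ" => integerComplement

theorem W_bdd {ℓ : ℕ} (hℓ : ℓ.Prime) (h5 : 5 ≤ ℓ) {v : Fin 2 → ℤ} (hv : NZ ℓ v) :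
    IsBoundedAtImInfty (W ℓ v) := by
  rw [UpperHalfPlane.isBoundedAtImInfty_iff]
  obtain ⟨B, hB, hb⟩ := row_bound hℓ.ne_zero v one_pos
  refine ⟨∑' m, B m, 1, fun z hz => ?_⟩
  rw [W_eq_tsum_row hℓ h5 hv]
  exact tsum_of_norm_bounded hB.hasSum (fun m => hb m z hz)

theorem one_sub_ex_ne_zero {ℓ : ℕ} (hℓ : ℓ ≠ 0) {w : Fin 2 → ℤ} (hw : NZ ℓ w) {z : ℂ}
    (hz : 0 < z.im) : 1 - ex ℓ w z ≠ 0 := by
  intro h
  have h1 : ex ℓ w z = 1 := by linear_combination -h
  unfold ex at h1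
  rw [Complex.exp_eq_one_iff] at h1
  obtain ⟨n, hn⟩ := h1
  have hmem := hw.mem_integerComplement hℓ ⟨z, hz⟩
  apply hmem
  refine ⟨n, ?_⟩
  have h2 : (2 * (π : ℂ) * I) ≠ 0 := Complex.two_pi_I_ne_zero
  have h3 : (2 * (π : ℂ) * I) * ((((w 0 : ℤ) : ℂ) * z + ((w 1 : ℤ) : ℂ)) / ℓ)
      = (2 * (π : ℂ) * I) * n := by
    rw [← mul_div_assoc, hn]
    ring
  exact (mul_left_cancel₀ h2 h3).symm

theorem differentiable_ex (ℓ : ℕ) (w : Fin 2 → ℤ) : Differentiable ℂ (ex ℓ w) := by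
  unfold ex
  fun_prop

theorem kap_ex_differentiableOn {ℓ : ℕ} (hℓ : ℓ ≠ 0) {w : Fin 2 → ℤ} (hw : NZ ℓ w) :
    DifferentiableOn ℂ (fun z => kap (ex ℓ w z)) {z : ℂ | 0 < z.im} := by
  unfold kap
  apply DifferentiableOn.div
  · exact ((differentiable_const _).mul ((differentiable_const _).add
      (differentiable_ex ℓ w))).differentiableOn
  · exact ((differentiable_const _).sub (differentiable_ex ℓ w)).differentiableOn
  · intro z hz
    exact one_sub_ex_ne_zero hℓ hw hz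

theorem row_differentiableOn {ℓ : ℕ} (hℓ : ℓ.Prime) (h5 : 5 ≤ ℓ) {v : Fin 2 → ℤ} (hv : NZ ℓ v) (m : ℤ) :
    DifferentiableOn ℂ (row ℓ v m) {z : ℂ | 0 < z.im} := by
  have n1 : ¬ (ℓ : ℤ) ∣ 1 := by
    intro h
    have := Int.le_of_dvd one_pos h
    omega
  have n2 : ¬ (ℓ : ℤ) ∣ 2 := by
    intro h
    have := Int.le_of_dvd two_pos h
    omega
  have n3 : ¬ (ℓ : ℤ) ∣ 3 := by
    intro h
    have := Int.le_of_dvd three_pos h
    omega
  have w1 := hv.smul_add hℓ n1 ![m, 0]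
  rw [one_smul] at w1
  have w2 := hv.smul_add hℓ n2 ![m, 0]
  have w3 := hv.smul_add hℓ n3 ![m, 0]
  unfold row
  exact (differentiableOn_const _).mul
    (((kap_ex_differentiableOn hℓ.ne_zero w1).sub
      ((differentiableOn_const _).mul (kap_ex_differentiableOn hℓ.ne_zero w2))).add
      (kap_ex_differentiableOn hℓ.ne_zero w3))

theorem W_mdiff {ℓ : ℕ} (hℓ : ℓ.Prime) (h5 : 5 ≤ ℓ) {v : Fin 2 → ℤ} (hv : NZ ℓ v) :
    MDiff (W ℓ v) := by
  rw [UpperHalfPlane.mdifferentiable_iff]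
  intro z₀ hz₀
  have hz₀' : 0 < z₀.im := hz₀
  set S : Set ℂ := {z : ℂ | z₀.im / 2 < z.im} with hS
  have hSo : IsOpen S := isOpen_lt continuous_const Complex.continuous_im
  obtain ⟨B, hB, hb⟩ := row_bound hℓ.ne_zero v (δ := z₀.im / 2) (half_pos hz₀')
  have hd : DifferentiableOn ℂ (fun z => ∑' m, row ℓ v m z) S :=
    differentiableOn_tsum_of_summable_norm hB
      (fun m => (row_differentiableOn hℓ h5 hv m).mono (fun z hz => by
        have : z₀.im / 2 < z.im := hz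
        have h2 : 0 < z₀.im / 2 := half_pos hz₀'
        exact lt_trans h2 this)) hSo
      (fun m z hz => hb m z (le_of_lt hz))
  have hz₀S : z₀ ∈ S := by
    show z₀.im / 2 < z₀.im
    linarith
  have hda : DifferentiableAt ℂ (fun z => ∑' m, row ℓ v m z) z₀ :=
    hd.differentiableAt (hSo.mem_nhds hz₀S)
  apply DifferentiableAt.differentiableWithinAt
  apply hda.congr_of_eventuallyEq
  filter_upwards [isOpen_upperHalfPlaneSet.mem_nhds hz₀] with z hz
  rw [Function.comp_apply, ofComplex_apply_of_im_pos hz, W_eq_tsum_row hℓ h5 hv]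

end Fermat.Agent.S48.G1

end
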