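import Fermat.Agent.S48.G1.Defs

/-!
# G1-Lambert (Mathlib only) : Lambert series regrouping with bounded coefficients

Copy of Mathlib's `tsum_prod_pow_eq_tsum_sigma` (`Mathlib/NumberTheory/TsumDivisorsAntidiagonal.lean`):
`(m,k) ↦ c k * q^(m k)` is summable on `ℕ+ × ℕ+` (norm `≤ C * ‖q‖^(m k)`, `summable_prod_mul_pow 0`), transport along
`sigmaAntidiagonalEquivProd`, `HasSum.sigma` / `Summable.tsum_sigma`, inner finite sums via `Nat.sum_divisorsAntidiagonal`.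
-/

set_option autoImplicit false

open UpperHalfPlane hiding I
open EisensteinSeries Complex CongruenceSubgroup
open scoped MatrixGroups ModularForm Real Manifold

noncomputable section

namespace Fermat.Agent.S48.G1

local notation "ℂ_ℤ" => integerComplement

theorem lambert_summable {c : ℕ → ℂ} {C : ℝ} (hc : ∀ k, ‖c k‖ ≤ C) {q : ℂ} (hq : ‖q‖ < 1) :
    Summable fun p : ℕ+ × ℕ+ => c p.2 * q ^ ((p.1 : ℕ) * p.2) := by
  have h := (summable_prod_mul_pow (𝕜 := ℂ) 0 hq).norm.mul_left C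
  refine Summable.of_norm_bounded h (fun p => ?_)
  rw [norm_mul]
  simp only [pow_zero, one_mul]
  exact mul_le_mul_of_nonneg_right (hc _) (norm_nonneg _)

theorem lambert {c : ℕ → ℂ} {C : ℝ} (hc : ∀ k, ‖c k‖ ≤ C) {q : ℂ} (hq : ‖q‖ < 1) :
    HasSum (fun n : ℕ+ => (∑ k ∈ (n : ℕ).divisors, c k) * q ^ (n : ℕ))
      (∑' m : ℕ+, ∑' k : ℕ+, c k * q ^ ((m : ℕ) * k)) := by
  have hs := lambert_summable hc hq
  have e : ∑' m : ℕ+, ∑' k : ℕ+, c k * q ^ ((m : ℕ) * k)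
      = ∑' p : ℕ+ × ℕ+, c p.2 * q ^ ((p.1 : ℕ) * p.2) := (hs.tsum_prod).symm
  rw [e]
  have h1 := (sigmaAntidiagonalEquivProd.hasSum_iff).mpr hs.hasSum
  refine h1.sigma (fun n => ?_)
  have h2 := hasSum_fintype (fun x : (n : ℕ).divisorsAntidiagonal =>
    ((fun p : ℕ+ × ℕ+ => c p.2 * q ^ ((p.1 : ℕ) * p.2)) ∘ sigmaAntidiagonalEquivProd) ⟨n, x⟩)
  convert h2 using 1
  simp only [Function.comp_apply, sigmaAntidiagonalEquivProd, divisorsAntidiagonalFactors,
    PNat.mk_coe, Equiv.coe_fn_mk]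
  rw [Finset.univ_eq_attach,
    (n : ℕ).divisorsAntidiagonal.sum_attach (fun x : ℕ × ℕ => c x.2 * q ^ (x.1 * x.2)),
    Nat.sum_divisorsAntidiagonal' (fun x y => c y * q ^ (x * y)), Finset.sum_mul]
  refine Finset.sum_congr rfl (fun i hi => ?_)
  rw [Nat.div_mul_cancel (Nat.dvd_of_mem_divisors hi)]

end Fermat.Agent.S48.G1

end
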