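import Fermat.Agent.S48.G1.KapBound

/-!
# G1-RowQ (Mathlib only) : the rows of `W_{(0,a)}` as power series in `q`

`ex ℓ (i • ![0,a] + ℓ • ![m,0]) z = q^m ζ^{ia}`, `q = exp(2πiz)`, `ζ = zeta ℓ`.
* `row_zero` : `κ(e) = i (1 + 2/(e-1))` for `e ≠ 1`; `ζ^{ia} ≠ 1` for `i = 1,2,3` since `ℓ ∤ ia`
  (`Complex.exp_eq_one_iff`, or `Complex.isPrimitiveRoot_exp ℓ` + `IsPrimitiveRoot.zpow_eq_one_iff_dvd`).
* `row_add_row_neg` : for `‖e‖ < 1`: `κ(e) = -i - 2i ∑_{k ≥ 1} e^k`; for `‖e‖ > 1`: `κ(e) = i + 2i ∑_{k≥1} e^{-k}`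
  (`tsum_geometric_of_norm_lt_one`, `tsum_pnat_eq_tsum_succ`); the constants cancel in `κ₁ - 2κ₂ + κ₃`.
-/

set_option autoImplicit false

open UpperHalfPlane hiding I
open EisensteinSeries Complex CongruenceSubgroup
open scoped MatrixGroups ModularForm Real Manifold

noncomputable section

namespace Fermat.Agent.S48.G1

local notation "ℂ_ℤ" => integerComplement

theorem ex_eq {ℓ : ℕ} (hℓ : ℓ ≠ 0) (w : Fin 2 → ℤ) (m b : ℤ) (h0 : w 0 = (ℓ : ℤ) * m)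
    (h1 : w 1 = b) (z : ℂ) : ex ℓ w z = cexp (2 * π * I * z) ^ m * zeta ℓ ^ b := by
  have hℓ' : (ℓ : ℂ) ≠ 0 := by exact_mod_cast hℓ
  unfold ex zeta
  rw [h0, h1, ← Complex.exp_int_mul, ← Complex.exp_int_mul, ← Complex.exp_add]
  congr 1
  push_cast
  field_simp

theorem norm_zeta (ℓ : ℕ) : ‖zeta ℓ‖ = 1 := by
  unfold zeta
  have : 2 * (π : ℂ) * I / ℓ = ((2 * π / ℓ : ℝ) : ℂ) * I := by
    push_cast
    ring
  rw [this, Complex.norm_exp_ofReal_mul_I]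

theorem zeta_ne_zero_q (ℓ : ℕ) : zeta ℓ ≠ 0 := Complex.exp_ne_zero _

theorem zeta_zpow_ne_one {ℓ : ℕ} (hℓ : ℓ ≠ 0) {b : ℤ} (hb : ¬ (ℓ : ℤ) ∣ b) : zeta ℓ ^ b ≠ 1 := by
  intro h
  exact hb (((Complex.isPrimitiveRoot_exp ℓ hℓ).zpow_eq_one_iff_dvd b).mp h)

theorem kap_eq_of_ne_one {e : ℂ} (he : e ≠ 1) : kap e = I * (1 + 2 / (e - 1)) := by
  unfold kap
  have h1 : 1 - e ≠ 0 := by
    intro h
    apply he
    linear_combination -h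
  have h2 : e - 1 ≠ 0 := sub_ne_zero.mpr he
  field_simp
  ring

theorem row_zero {ℓ : ℕ} (hℓ : ℓ.Prime) (h5 : 5 ≤ ℓ) {a : ℤ} (ha : ¬ (ℓ : ℤ) ∣ a) (z : ℂ) :
    (zeta ℓ - 1) * (ℓ / (π * I)) * row ℓ ![0, a] 0 z = cG ℓ a 0 := by
  have hℓ0 := hℓ.ne_zero
  have hℓ' : (ℓ : ℂ) ≠ 0 := by exact_mod_cast hℓ0
  have hp := Nat.prime_iff_prime_int.mp hℓ
  have n2 : ¬ (ℓ : ℤ) ∣ 2 := by
    intro h
    have := Int.le_of_dvd two_pos h
    omega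
  have n3 : ¬ (ℓ : ℤ) ∣ 3 := by
    intro h
    have := Int.le_of_dvd three_pos h
    omega
  have ha2 : ¬ (ℓ : ℤ) ∣ 2 * a := fun h => (hp.dvd_or_dvd h).elim n2 ha
  have ha3 : ¬ (ℓ : ℤ) ∣ 3 * a := fun h => (hp.dvd_or_dvd h).elim n3 ha
  have e1 : ex ℓ (![0, a] + (ℓ : ℤ) • ![0, 0]) z = zeta ℓ ^ a := by
    rw [ex_eq hℓ0 _ 0 a (by simp) (by simp)]
    simp
  have e2 : ex ℓ ((2 : ℤ) • ![0, a] + (ℓ : ℤ) • ![0, 0]) z = zeta ℓ ^ (2 * a) := by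
    rw [ex_eq hℓ0 _ 0 (2 * a) (by simp) (by simp)]
    simp
  have e3 : ex ℓ ((3 : ℤ) • ![0, a] + (ℓ : ℤ) • ![0, 0]) z = zeta ℓ ^ (3 * a) := by
    rw [ex_eq hℓ0 _ 0 (3 * a) (by simp) (by simp)]
    simp
  unfold row
  rw [e1, e2, e3, kap_eq_of_ne_one (zeta_zpow_ne_one hℓ0 ha),
    kap_eq_of_ne_one (zeta_zpow_ne_one hℓ0 ha2), kap_eq_of_ne_one (zeta_zpow_ne_one hℓ0 ha3)]
  simp only [cG, if_true]
  have hπ : (π : ℂ) ≠ 0 := by exact_mod_cast Real.pi_ne_zero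
  have h1 : zeta ℓ ^ a - 1 ≠ 0 := sub_ne_zero.mpr (zeta_zpow_ne_one hℓ0 ha)
  have h2 : zeta ℓ ^ (2 * a) - 1 ≠ 0 := sub_ne_zero.mpr (zeta_zpow_ne_one hℓ0 ha2)
  have h3 : zeta ℓ ^ (3 * a) - 1 ≠ 0 := sub_ne_zero.mpr (zeta_zpow_ne_one hℓ0 ha3)
  generalize zeta ℓ ^ a - 1 = p1 at *
  generalize zeta ℓ ^ (2 * a) - 1 = p2 at *
  generalize zeta ℓ ^ (3 * a) - 1 = p3 at *
  field_simp
  ring

theorem hasSum_pnat_geom {e : ℂ} (he : ‖e‖ < 1) :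
    HasSum (fun k : ℕ+ => e ^ (k : ℕ)) (e / (1 - e)) := by
  have h := (hasSum_geometric_of_norm_lt_one he).mul_left e
  rw [← div_eq_mul_inv] at h
  rw [← Equiv.pnatEquivNat.hasSum_iff] at h
  have e1 : (fun k : ℕ+ => e ^ (k : ℕ)) = (fun i => e * e ^ i) ∘ ⇑Equiv.pnatEquivNat := by
    funext k
    simp only [Function.comp_apply, Equiv.pnatEquivNat_apply]
    rw [← pow_succ', PNat.natPred_add_one]
  rw [e1]
  exact h

theorem kap_eq_of_norm_lt {e : ℂ} (he : ‖e‖ < 1) : kap e = -I - 2 * I * (e / (1 - e)) := by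
  have h1 : 1 - e ≠ 0 := by
    intro h
    have : e = 1 := by linear_combination -h
    rw [this, norm_one] at he
    exact lt_irrefl _ he
  have := kap_add_I h1
  linear_combination this

theorem row_add_row_neg {ℓ : ℕ} (hℓ : ℓ ≠ 0) (a : ℤ) (z : ℍ) (m : ℕ+) :
    (zeta ℓ - 1) * (ℓ / (π * I)) * (row ℓ ![0, a] m z + row ℓ ![0, a] (-m) z) =
      -2 * (zeta ℓ - 1) * ∑' k : ℕ+, cc ℓ a k * cexp (2 * π * I * z) ^ ((m : ℕ) * k) := by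
  have hℓ' : (ℓ : ℂ) ≠ 0 := by exact_mod_cast hℓ
  have hπ : (π : ℂ) ≠ 0 := by exact_mod_cast Real.pi_ne_zero
  set q : ℂ := cexp (2 * π * I * z) with hq
  have hq0 : q ≠ 0 := Complex.exp_ne_zero _
  have hq1 : ‖q‖ < 1 := UpperHalfPlane.norm_exp_two_pi_I_lt_one z
  set E : ℤ → ℂ := fun b => q ^ (m : ℕ) * zeta ℓ ^ b with hE
  have hE0 : ∀ b, E b ≠ 0 := fun b => mul_ne_zero (pow_ne_zero _ hq0) (zpow_ne_zero _ (zeta_ne_zero_q ℓ))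
  have hE1 : ∀ b, ‖E b‖ < 1 := by
    intro b
    rw [hE]
    simp only [norm_mul, norm_pow, norm_zpow, norm_zeta, one_zpow, mul_one]
    exact pow_lt_one₀ (norm_nonneg _) hq1 m.ne_zero
  have hpos : ∀ (w : Fin 2 → ℤ) (b : ℤ), w 0 = (ℓ : ℤ) * (m : ℕ) → w 1 = b → ex ℓ w z = E b := by
    intro w b h0 h1
    rw [ex_eq hℓ w _ b h0 h1, zpow_natCast]
  have hneg : ∀ (w : Fin 2 → ℤ) (b : ℤ), w 0 = (ℓ : ℤ) * (-((m : ℕ) : ℤ)) → w 1 = b →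
      ex ℓ w z = (E (-b))⁻¹ := by
    intro w b h0 h1
    rw [ex_eq hℓ w _ b h0 h1, zpow_neg, zpow_natCast, hE]
    simp only [mul_inv, zpow_neg, inv_inv, hq]
  have hk : ∀ b, kap (E b) = -I - 2 * I * (E b / (1 - E b)) := fun b => kap_eq_of_norm_lt (hE1 b)
  have hsum : HasSum (fun k : ℕ+ => cc ℓ a k * q ^ ((m : ℕ) * k))
      ((E a / (1 - E a) - E (-a) / (1 - E (-a)))
        - 2 * (E (2 * a) / (1 - E (2 * a)) - E (-(2 * a)) / (1 - E (-(2 * a))))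
        + (E (3 * a) / (1 - E (3 * a)) - E (-(3 * a)) / (1 - E (-(3 * a))))) := by
    have h := (((hasSum_pnat_geom (hE1 a)).sub (hasSum_pnat_geom (hE1 (-a)))).sub
      (((hasSum_pnat_geom (hE1 (2 * a))).sub (hasSum_pnat_geom (hE1 (-(2 * a))))).mul_left 2)).add
      ((hasSum_pnat_geom (hE1 (3 * a))).sub (hasSum_pnat_geom (hE1 (-(3 * a)))))
    have e1 : (fun k : ℕ+ => cc ℓ a k * q ^ ((m : ℕ) * k)) = fun k : ℕ+ =>
        E a ^ (k : ℕ) - E (-a) ^ (k : ℕ) - 2 * (E (2 * a) ^ (k : ℕ) - E (-(2 * a)) ^ (k : ℕ))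
          + (E (3 * a) ^ (k : ℕ) - E (-(3 * a)) ^ (k : ℕ)) := by
      funext k
      have hp : ∀ b : ℤ, E b ^ (k : ℕ) = q ^ ((m : ℕ) * k) * zeta ℓ ^ (b * (k : ℕ)) := by
        intro b
        rw [hE]
        simp only [mul_pow, ← pow_mul, zpow_mul, zpow_natCast]
      rw [hp, hp, hp, hp, hp, hp]
      unfold cc
      simp only [neg_mul]
      ring
    rw [e1]
    exact h
  rw [hsum.tsum_eq]
  unfold row
  rw [hpos _ a (by simp) (by simp), hpos _ (2 * a) (by simp) (by simp),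
    hpos _ (3 * a) (by simp) (by simp), hneg _ a (by simp) (by simp),
    hneg _ (2 * a) (by simp) (by simp), hneg _ (3 * a) (by simp) (by simp),
    kap_inv (hE0 _), kap_inv (hE0 _), kap_inv (hE0 _), hk, hk, hk, hk, hk, hk]
  generalize E a / (1 - E a) = t1
  generalize E (-a) / (1 - E (-a)) = t1'
  generalize E (2 * a) / (1 - E (2 * a)) = t2
  generalize E (-(2 * a)) / (1 - E (-(2 * a))) = t2'
  generalize E (3 * a) / (1 - E (3 * a)) = t3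
  generalize E (-(3 * a)) / (1 - E (-(3 * a))) = t3'
  field_simp
  ring

end Fermat.Agent.S48.G1

end
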