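import Fermat.Agent.S48.G1.Row
import Fermat.Agent.S48.G1.RowBound
import Fermat.Agent.S48.G1.Lambert
import Fermat.Agent.S48.G1.RowQ

/-!
# G1-QExp : the `q`-expansion of `Gf ℓ a`

`W = ∑_m row m` (`W_eq_tsum_row`, `NZ ℓ ![0,a]`), rows summable (`row_bound` with `δ = Im z`), `tsum_int_eq_zero_add_tsum_pnat`,
`row_zero`, `row_add_row_neg`, `lambert` (`‖cc ℓ a k‖ ≤ 8` since `‖ζ‖ = 1`), then pass from `ℕ+` to `ℕ`
(`hasSum_nat_add_iff' 1` / `tsum_pnat_eq_tsum_succ`, cf. Mathlib's `hasSum_qExpansion_E2`).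
`Function.Periodic.qParam 1 z = cexp (2 * π * I * z / 1)`.
-/

set_option autoImplicit false

open UpperHalfPlane hiding I
open EisensteinSeries Complex CongruenceSubgroup
open scoped MatrixGroups ModularForm Real Manifold

noncomputable section

namespace Fermat.Agent.S48.G1

local notation "ℂ_ℤ" => integerComplement

theorem norm_zeta_zpow (ℓ : ℕ) (j : ℤ) : ‖zeta ℓ ^ j‖ = 1 := by
  rw [norm_zpow, norm_zeta, one_zpow]

theorem norm_cc_le (ℓ : ℕ) (a : ℤ) (k : ℕ) : ‖cc ℓ a k‖ ≤ 8 := by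
  unfold cc
  have h := norm_zeta_zpow ℓ
  calc _ ≤ ‖(zeta ℓ ^ (a * k) - zeta ℓ ^ (-(a * k))) - 2 * (zeta ℓ ^ (2 * a * k) - zeta ℓ ^ (-(2 * a * k)))‖
        + ‖zeta ℓ ^ (3 * a * k) - zeta ℓ ^ (-(3 * a * k))‖ := norm_add_le _ _
    _ ≤ (‖zeta ℓ ^ (a * k) - zeta ℓ ^ (-(a * k))‖ + ‖2 * (zeta ℓ ^ (2 * a * k) - zeta ℓ ^ (-(2 * a * k)))‖)
        + ‖zeta ℓ ^ (3 * a * k) - zeta ℓ ^ (-(3 * a * k))‖ := by gcongr; exact norm_sub_le _ _
    _ ≤ ((1 + 1) + 2 * (1 + 1)) + (1 + 1) := by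
        rw [norm_mul]
        have h2 : ‖(2 : ℂ)‖ = 2 := by norm_num
        rw [h2]
        have e1 := norm_sub_le (zeta ℓ ^ (a * k)) (zeta ℓ ^ (-(a * k)))
        have e2 := norm_sub_le (zeta ℓ ^ (2 * a * k)) (zeta ℓ ^ (-(2 * a * k)))
        have e3 := norm_sub_le (zeta ℓ ^ (3 * a * k)) (zeta ℓ ^ (-(3 * a * k)))
        rw [h, h] at e1 e2 e3
        linarith
    _ = 8 := by norm_num

theorem nz_zero_a {ℓ : ℕ} {a : ℤ} (ha : ¬ (ℓ : ℤ) ∣ a) : NZ ℓ ![0, a] := fun h => ha (by simpa using h 1)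

theorem Gf_hasSum {ℓ : ℕ} (hℓ : ℓ.Prime) (h5 : 5 ≤ ℓ) {a : ℤ} (ha : ¬ (ℓ : ℤ) ∣ a) (z : ℍ) :
    HasSum (fun n : ℕ => cG ℓ a n • Function.Periodic.qParam 1 z ^ n) (Gf ℓ a z) := by
  set c : ℂ := (zeta ℓ - 1) * (ℓ / (π * I)) with hc
  set q : ℂ := cexp (2 * π * I * z) with hq
  have hqq : Function.Periodic.qParam 1 z = q := by
    rw [Function.Periodic.qParam, hq]; simp
  have hq1 : ‖q‖ < 1 := by
    rw [← hqq]
    simpa using UpperHalfPlane.norm_qParam_lt_one 1 z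
  obtain ⟨B, hB, hBr⟩ := row_bound hℓ.ne_zero ![0, a] z.im_pos
  have hsum : Summable fun m : ℤ => row ℓ ![0, a] m z :=
    Summable.of_norm_bounded hB (fun m => hBr m z le_rfl)
  have h1 : Summable fun n : ℕ => row ℓ ![0, a] n z :=
    (summable_int_iff_summable_nat_and_neg.mp hsum).1
  have h2 : Summable fun n : ℕ => row ℓ ![0, a] (-n) z :=
    (summable_int_iff_summable_nat_and_neg.mp hsum).2
  have h3 : Summable fun n : ℕ+ => row ℓ ![0, a] n z :=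
    (summable_pnat_iff_summable_nat (f := fun n : ℕ => row ℓ ![0, a] n z)).2 h1
  have h4 : Summable fun n : ℕ+ => row ℓ ![0, a] (-n) z :=
    (summable_pnat_iff_summable_nat (f := fun n : ℕ => row ℓ ![0, a] (-n) z)).2 h2
  have hG : Gf ℓ a z = cG ℓ a 0 + -2 * (zeta ℓ - 1) *
      ∑' m : ℕ+, ∑' k : ℕ+, cc ℓ a k * q ^ ((m : ℕ) * k) := by
    rw [Gf, W_eq_tsum_row hℓ h5 (nz_zero_a ha), tsum_int_eq_zero_add_tsum_pnat hsum, add_assoc,
      ← h3.tsum_add h4, mul_add, row_zero hℓ h5 ha, ← tsum_mul_left, ← tsum_mul_left]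
    congr 1
    exact tsum_congr fun m => row_add_row_neg hℓ.ne_zero a z m
  have hL := (lambert (c := cc ℓ a) (norm_cc_le ℓ a) hq1).mul_left (-2 * (zeta ℓ - 1))
  have hL' : HasSum (fun n : ℕ+ => cG ℓ a n • Function.Periodic.qParam 1 z ^ (n : ℕ))
      (-2 * (zeta ℓ - 1) * ∑' m : ℕ+, ∑' k : ℕ+, cc ℓ a k * q ^ ((m : ℕ) * k)) := by
    have e : (fun n : ℕ+ => cG ℓ a n • Function.Periodic.qParam 1 z ^ (n : ℕ)) =
        fun i : ℕ+ => -2 * (zeta ℓ - 1) * ((∑ k ∈ (i : ℕ).divisors, cc ℓ a k) * q ^ (i : ℕ)) := by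
      funext n
      rw [cG, if_neg n.ne_zero, hqq, smul_eq_mul, mul_assoc]
    rw [e]
    exact hL
  rw [hG, add_comm]
  have := (hasSum_pnat_iff (f := fun n : ℕ => cG ℓ a n • Function.Periodic.qParam 1 z ^ n)).1 hL'
  simpa using this

end Fermat.Agent.S48.G1

end
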