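import Fermat.Agent.S48.G1.Period
import Fermat.Agent.S48.G1.Holo
import Fermat.Agent.S48.G1.QExp
import Fermat.Prelude.Def_FLTPrelim_Modularity

/-!
# G1-Form : the modular forms `Gf ℓ a ∈ M₁(Γ₁(ℓ))`

OUTPUT OF THE ANALYTIC PART OF G1.  For `ℓ ≥ 5` prime and `ℓ ∤ a`:
* `exists_form` : `Gf ℓ a` is (the function of) a modular form of weight one on `Γ₁(ℓ)`;
* `Gf_congr` : it depends only on `a mod ℓ`;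
* `Gf_slash` : `Gf ℓ a ∣₁ γ = Gf ℓ (a d)` for `γ = (* *; c d) ∈ Γ₀(ℓ)` (diamond operators);
* `qCoeff_Gf` : its `q`-expansion is `cG ℓ a` (explicit elements of `ℤ[ζ_ℓ]`, see `Defs.lean`).
-/

set_option autoImplicit false

open UpperHalfPlane hiding I
open EisensteinSeries Complex CongruenceSubgroup
open scoped MatrixGroups ModularForm Real Manifold

noncomputable section

namespace Fermat.Agent.S48.G1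

local notation "ℂ_ℤ" => integerComplement

theorem nz_zero_cons {ℓ : ℕ} {a : ℤ} (ha : ¬ (ℓ : ℤ) ∣ a) : NZ ℓ ![0, a] :=
  fun h => ha (by simpa using h 1)

theorem Gf_eq_smul (ℓ : ℕ) (a : ℤ) :
    Gf ℓ a = ((zeta ℓ - 1) * (ℓ / (π * I))) • W ℓ ![0, a] := rfl

theorem Gf_congr {ℓ : ℕ} (hℓ : ℓ.Prime) (h5 : 5 ≤ ℓ) {a a' : ℤ} (ha : ¬ (ℓ : ℤ) ∣ a)
    (h : (ℓ : ℤ) ∣ a - a') : Gf ℓ a = Gf ℓ a' := by
  rw [Gf_eq_smul, Gf_eq_smul, W_congr hℓ h5 (nz_zero_cons ha) (v' := ![0, a'])]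
  intro j
  fin_cases j
  · simp
  · simpa using h

theorem vecMul_zero_cons (a : ℤ) (γ : SL(2, ℤ)) :
    Matrix.vecMul ![0, a] (γ : Matrix (Fin 2) (Fin 2) ℤ) = ![a * γ 1 0, a * γ 1 1] := by
  ext j
  fin_cases j <;> simp [Matrix.vecMul, Matrix.vecHead, Matrix.vecTail]

theorem Gf_slash {ℓ : ℕ} (hℓ : ℓ.Prime) (h5 : 5 ≤ ℓ) {a : ℤ} (ha : ¬ (ℓ : ℤ) ∣ a)
    {γ : SL(2, ℤ)} (hγ : γ ∈ Gamma0 ℓ) : Gf ℓ a ∣[(1 : ℤ)] γ = Gf ℓ (a * γ 1 1) := by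
  rw [Gf_eq_smul, Gf_eq_smul, ModularForm.SL_smul_slash, W_slash,
    W_congr hℓ h5 ((nz_zero_cons ha).vecMul γ) (v' := ![0, a * γ 1 1])]
  rw [vecMul_zero_cons]
  have h10 : (ℓ : ℤ) ∣ γ 1 0 := by
    have := Gamma0_mem.mp hγ
    exact (ZMod.intCast_zmod_eq_zero_iff_dvd _ _).mp this
  intro j
  fin_cases j
  · simpa using Dvd.dvd.mul_left h10 a
  · simp

theorem Gf_slash_Gamma1 {ℓ : ℕ} (hℓ : ℓ.Prime) (h5 : 5 ≤ ℓ) {a : ℤ} (ha : ¬ (ℓ : ℤ) ∣ a)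
    {γ : SL(2, ℤ)} (hγ : γ ∈ Gamma1 ℓ) : Gf ℓ a ∣[(1 : ℤ)] γ = Gf ℓ a := by
  have h := (Gamma1_mem ℓ γ).mp hγ
  have h0 : γ ∈ Gamma0 ℓ := Gamma0_mem.mpr h.2.2
  rw [Gf_slash hℓ h5 ha h0]
  have h11 : (ℓ : ℤ) ∣ γ 1 1 - 1 := by
    have h2 : (((γ 1 1 - 1 : ℤ)) : ZMod ℓ) = 0 := by
      push_cast
      rw [h.2.1, sub_self]
    exact (ZMod.intCast_zmod_eq_zero_iff_dvd _ _).mp h2
  symm
  apply Gf_congr hℓ h5 ha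
  have : a - a * γ 1 1 = -(a * (γ 1 1 - 1)) := by ring
  rw [this]
  exact (Dvd.dvd.mul_left h11 a).neg_right

theorem Gf_slash_bdd {ℓ : ℕ} (hℓ : ℓ.Prime) (h5 : 5 ≤ ℓ) {a : ℤ} (ha : ¬ (ℓ : ℤ) ∣ a)
    (γ : SL(2, ℤ)) : IsBoundedAtImInfty (Gf ℓ a ∣[(1 : ℤ)] γ) := by
  rw [Gf_eq_smul, ModularForm.SL_smul_slash, W_slash]
  exact (W_bdd hℓ h5 ((nz_zero_cons ha).vecMul γ)).smul _

theorem Gf_mdiff {ℓ : ℕ} (hℓ : ℓ.Prime) (h5 : 5 ≤ ℓ) {a : ℤ} (ha : ¬ (ℓ : ℤ) ∣ a) :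
    MDiff (Gf ℓ a) := by
  rw [Gf_eq_smul]
  exact (W_mdiff hℓ h5 (nz_zero_cons ha)).const_smul _

theorem exists_form {ℓ : ℕ} (hℓ : ℓ.Prime) (h5 : 5 ≤ ℓ) {a : ℤ} (ha : ¬ (ℓ : ℤ) ∣ a) :
    ∃ G : ModularForm (Gamma1 ℓ) 1, (G : ℍ → ℂ) = Gf ℓ a := by
  have : NeZero ℓ := ⟨hℓ.ne_zero⟩
  refine ⟨{ toFun := Gf ℓ a
            slash_action_eq' := ?_
            holo' := Gf_mdiff hℓ h5 ha
            bdd_at_cusps' := ?_ }, rfl⟩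
  · intro γ hγ
    obtain ⟨γ', hγ', rfl⟩ := hγ
    exact Gf_slash_Gamma1 hℓ h5 ha hγ'
  · intro c hc
    rw [Subgroup.IsArithmetic.isCusp_iff_isCusp_SL2Z] at hc
    rw [OnePoint.isBoundedAt_iff_forall_SL2Z hc]
    exact fun γ _ => Gf_slash_bdd hℓ h5 ha γ

theorem qCoeff_Gf {ℓ : ℕ} (hℓ : ℓ.Prime) (h5 : 5 ≤ ℓ) {a : ℤ} (ha : ¬ (ℓ : ℤ) ∣ a) (n : ℕ) :
    ModularFormClass.qCoeff (Gf ℓ a) n = cG ℓ a n := by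
  obtain ⟨G, hG⟩ := exists_form hℓ h5 ha
  rw [ModularFormClass.qCoeff, ← hG]
  symm
  refine ModularFormClass.qExpansion_coeff_unique (f := G) (c := cG ℓ a) one_pos (by simp)
    (fun τ => ?_) n
  rw [hG]
  exact Gf_hasSum hℓ h5 ha τ

end Fermat.Agent.S48.G1

end
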