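import Fermat.Agent.S48.G1.Defs

/-!
# G1-KapBound (Mathlib only)

`κ(e) + i = -2ie/(1-e)`, `κ(e) - i = -2i/(1-e)` (`e ≠ 1`).  `‖ex ℓ w z‖ = exp(-2π w₀ Im z/ℓ)` (`Complex.norm_exp`).  With
`ρ = exp(-2πδ/ℓ) < 1`, `j = w₀`, `δ ≤ Im z`:
* `j > 0`: `‖e‖ ≤ ρ^j ≤ ρ`, `‖κ+i‖ ≤ 2‖e‖/(1-‖e‖) ≤ 2ρ^j/(1-ρ)`;
* `j < 0`: `‖e‖⁻¹ ≤ ρ^{|j|} ≤ ρ`, `‖κ-i‖ = 2/‖1-e‖ ≤ 2/(‖e‖-1) = 2‖e‖⁻¹/(1-‖e‖⁻¹) ≤ 2ρ^{|j|}/(1-ρ)`;
* `j = 0`: `ex ℓ w z = exp(2πi b/ℓ)` does not depend on `z`.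
`K = max (2/(1-ρ)) ‖κ(exp(2πi b/ℓ))‖`.
-/

set_option autoImplicit false

open UpperHalfPlane hiding I
open EisensteinSeries Complex CongruenceSubgroup
open scoped MatrixGroups ModularForm Real Manifold

noncomputable section

namespace Fermat.Agent.S48.G1

local notation "ℂ_ℤ" => integerComplement

theorem kap_add_I {e : ℂ} (he : 1 - e ≠ 0) : kap e + I = -2 * I * e / (1 - e) := by
  unfold kap
  field_simp
  ring

theorem kap_inv {e : ℂ} (he : e ≠ 0) : kap e⁻¹ = - kap e := by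
  unfold kap
  by_cases h1 : 1 - e = 0
  · have : e = 1 := by linear_combination -h1
    subst this
    simp
  · have h2 : 1 - e⁻¹ ≠ 0 := by
      intro h
      apply h1
      have : e⁻¹ = 1 := by linear_combination -h
      have : e = 1 := by rw [← inv_inv e, this, inv_one]
      rw [this, sub_self]
    have h3 : e - 1 ≠ 0 := by
      intro h
      apply h1
      linear_combination -h
    field_simp
    ring

theorem norm_kap_add_I_le {e : ℂ} {r ρ : ℝ} (h1 : ‖e‖ ≤ r) (h2 : r ≤ ρ) (h3 : ρ < 1) :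
    ‖kap e + I‖ ≤ 2 / (1 - ρ) * r := by
  have h4 : 1 - ρ ≤ ‖1 - e‖ := by
    have := norm_sub_norm_le (1 : ℂ) e
    rw [norm_one] at this
    linarith
  have h5 : 0 < 1 - ρ := by linarith
  have he : 1 - e ≠ 0 := by
    intro h
    rw [h, norm_zero] at h4
    linarith
  rw [kap_add_I he, norm_div, norm_mul, norm_mul, norm_neg, Complex.norm_ofNat, Complex.norm_I,
    mul_one, div_mul_eq_mul_div]
  have h6 : 0 ≤ r := le_trans (norm_nonneg _) h1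
  exact div_le_div₀ (by positivity) (by linarith) h5 h4

theorem norm_kap_sub_I_le {e : ℂ} {r ρ : ℝ} (he : e ≠ 0) (h1 : ‖e‖⁻¹ ≤ r) (h2 : r ≤ ρ)
    (h3 : ρ < 1) : ‖kap e - I‖ ≤ 2 / (1 - ρ) * r := by
  have h := norm_kap_add_I_le (e := e⁻¹) (by rwa [norm_inv]) h2 h3
  rw [kap_inv he] at h
  have e1 : kap e - I = -(-kap e + I) := by ring
  rw [e1, norm_neg]
  exact h

theorem norm_ex (ℓ : ℕ) (w : Fin 2 → ℤ) (z : ℂ) :
    ‖ex ℓ w z‖ = Real.exp (((w 0 : ℤ) : ℝ) * (-2 * π * z.im / ℓ)) := by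
  unfold ex
  rw [Complex.norm_exp]
  congr 1
  have : 2 * (π : ℂ) * I * (((w 0 : ℤ) : ℂ) * z + ((w 1 : ℤ) : ℂ)) / ℓ
      = (((2 * π / ℓ : ℝ)) : ℂ) * (I * (((w 0 : ℤ) : ℂ) * z + ((w 1 : ℤ) : ℂ))) := by
    push_cast
    ring
  rw [this, Complex.re_ofReal_mul]
  simp
  ring

theorem kap_ex_bound {ℓ : ℕ} (hℓ : ℓ ≠ 0) (b : ℤ) {δ : ℝ} (hδ : 0 < δ) :
    ∃ K : ℝ, ∀ w : Fin 2 → ℤ, w 1 = b → ∀ z : ℂ, δ ≤ z.im →
      ‖kap (ex ℓ w z) + I * ((Int.sign (w 0) : ℤ) : ℂ)‖ ≤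
        K * Real.exp (-2 * π * δ / ℓ) ^ (w 0).natAbs := by
  have hℓ' : (0 : ℝ) < ℓ := by exact_mod_cast Nat.pos_of_ne_zero hℓ
  set ρ : ℝ := Real.exp (-2 * π * δ / ℓ) with hρ
  have hρ1 : ρ < 1 := by
    rw [hρ, Real.exp_lt_one_iff]
    have : 0 < 2 * π * δ / ℓ := by positivity
    have e : -2 * π * δ / ℓ = -(2 * π * δ / ℓ) := by ring
    rw [e]
    linarith
  have hρ0 : 0 < ρ := Real.exp_pos _
  refine ⟨max (2 / (1 - ρ)) ‖kap (cexp (2 * π * I * b / ℓ))‖, fun w hw z hz => ?_⟩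
  have hpow : ∀ n : ℕ, n ≠ 0 → Real.exp ((n : ℝ) * (-2 * π * z.im / ℓ)) ≤ ρ ^ n ∧ ρ ^ n ≤ ρ := by
    intro n hn
    constructor
    · rw [hρ, ← Real.exp_nat_mul, Real.exp_le_exp]
      apply mul_le_mul_of_nonneg_left _ (Nat.cast_nonneg n)
      apply div_le_div_of_nonneg_right _ hℓ'.le
      have : 0 < π := Real.pi_pos
      nlinarith
    · exact pow_le_of_le_one hρ0.le hρ1.le hn
  have hK : 0 ≤ ρ ^ (w 0).natAbs := by positivity
  rcases lt_trichotomy (w 0) 0 with h | h | h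
  · have hn : (w 0).natAbs ≠ 0 := by omega
    have hc : ((w 0 : ℤ) : ℝ) = -(((w 0).natAbs : ℕ) : ℝ) := by
      have : w 0 = -(((w 0).natAbs : ℕ) : ℤ) := by omega
      calc ((w 0 : ℤ) : ℝ) = (((-(((w 0).natAbs : ℕ) : ℤ) : ℤ)) : ℝ) := by rw [← this]
        _ = _ := by rw [Int.cast_neg, Int.cast_natCast]
    rw [Int.sign_eq_neg_one_of_neg h]
    have e1 : kap (ex ℓ w z) + I * (((-1 : ℤ)) : ℂ) = kap (ex ℓ w z) - I := by
      push_cast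
      ring
    rw [e1]
    refine le_trans (norm_kap_sub_I_le (Complex.exp_ne_zero _) ?_ (hpow _ hn).2 hρ1) ?_
    · rw [norm_ex, ← Real.exp_neg, hc]
      have := (hpow _ hn).1
      convert this using 2
      ring
    · exact mul_le_mul_of_nonneg_right (le_max_left _ _) hK
  · rw [h]
    simp only [Int.sign_zero, Int.cast_zero, mul_zero, add_zero, Int.natAbs_zero, pow_zero, mul_one]
    have : ex ℓ w z = cexp (2 * π * I * b / ℓ) := by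
      unfold ex
      rw [h, hw]
      simp
    rw [this]
    exact le_max_right _ _
  · have hn : (w 0).natAbs ≠ 0 := by omega
    have hc : ((w 0 : ℤ) : ℝ) = (((w 0).natAbs : ℕ) : ℝ) := by
      have : w 0 = (((w 0).natAbs : ℕ) : ℤ) := by omega
      calc ((w 0 : ℤ) : ℝ) = (((((w 0).natAbs : ℕ) : ℤ)) : ℝ) := by rw [← this]
        _ = _ := Int.cast_natCast _
    rw [Int.sign_eq_one_of_pos h]
    have e1 : kap (ex ℓ w z) + I * (((1 : ℤ)) : ℂ) = kap (ex ℓ w z) + I := by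
      push_cast
      ring
    rw [e1]
    refine le_trans (norm_kap_add_I_le ?_ (hpow _ hn).2 hρ1) ?_
    · rw [norm_ex, hc]
      exact (hpow _ hn).1
    · exact mul_le_mul_of_nonneg_right (le_max_left _ _) hK

end Fermat.Agent.S48.G1

end
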