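import Fermat.Agent.S48.G1.ProdArith
import Fermat.Agent.S48.RHO.Main

/-!
# S48 / G1 : Theorem A' from Theorem A

`residual_of_kummer` : for a weight one eigenform `f` of level `N` there is `ℓ₀` such that for every prime `ℓ ≥ ℓ₀`, every group
`Γ₁(Nℓ) ≤ Γ ≤ ±Γ₁(Nℓ)` and every Kummer system `RHO.Kummer1 (Nℓ) ℓ (formT (Nℓ) Γ) (formD (Nℓ) Γ)` all residual representations
attached to `f` in characteristic `ℓ` exist.  (Product of the integral model `D g` of `f` with the weight one form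
`G₁ = Gf ℓ 1 ≡ 2/3`, `⟨d⟩ G₁ = G_d ≡ (2/3)/d`.)
-/

set_option autoImplicit false

open UpperHalfPlane hiding I
open Complex CongruenceSubgroup ModularForm
open Fermat.Agent.S48.W1 (lr HasChar)
open scoped MatrixGroups ModularForm Manifold

namespace Fermat.Agent.S48.G1

theorem residual_of_kummer {N : ℕ} [NeZero N] {ε : DirichletCharacter ℂ N}
    {f : CuspForm (Gamma1 N) 1} (hf : IsEigen N ε f) :
    ∃ ℓ₀ : ℕ, ∀ ℓ : ℕ, ℓ.Prime → ℓ₀ ≤ ℓ → ∀ [NeZero (N * ℓ)] (Γ : Subgroup SL(2, ℤ))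
      [PER1.IsMid (N * ℓ) Γ], (∀ γ ∈ Γ, lr (N * ℓ) γ = 1 ∨ lr (N * ℓ) γ = -1) →
      RHO.Kummer1 (N * ℓ) ℓ (PER1.formT (N * ℓ) Γ) (PER1.formD (N * ℓ) Γ) →
      ∀ (K : Type) [Field K] [IsAlgClosed K] [CharP K ℓ] (φ : Zb →+* K),
        ∃ ρ : GQ →* GL (Fin 2) K, IsResidual N ε f ℓ φ ρ := by
  obtain ⟨g, D, hD, hg, hgf, hint, hχ⟩ := W1.exists_integral_model hf
  refine ⟨max 5 (D + 1), ?_⟩
  intro ℓ hℓ hℓ₀ _ Γ _ hΓ 𝒦 K _ _ _ φ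
  have h5 : 5 ≤ ℓ := le_trans (le_max_left _ _) hℓ₀
  have hDℓ : D < ℓ := lt_of_lt_of_le (Nat.lt_succ_self D) (le_trans (le_max_right _ _) hℓ₀)
  have : Fact ℓ.Prime := ⟨hℓ⟩
  have h1 : ¬ (ℓ : ℤ) ∣ 1 := by
    intro h
    have := Int.le_of_dvd one_pos h
    omega
  obtain ⟨h, hh⟩ := exists_prod hℓ h5 g hχ (D : ℂ) h1 Γ hΓ
  obtain ⟨ρ, hlev, hss, hgood⟩ := RHO.theoremA (PER1.formOps (N * ℓ) Γ ℓ) 𝒦 φ (delta ε ℓ φ)
    (cK φ D g) (aK φ g) (cK_one_ne_zero φ hℓ h5 hD hDℓ hg.one) (eigRel_prod φ hℓ hg hint) h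
    (cong_prod φ hℓ h5 hχ hint Γ hh)
  refine ⟨ρ, hlev, hss, ?_⟩
  intro r hr hrNℓ a e ha he
  have hgr : RHO.Good (N * ℓ) ℓ r := by
    refine ⟨hr, fun h => ?_⟩
    rcases (Nat.Prime.dvd_mul hr).mp h with h | h
    · exact hrNℓ h
    · exact hrNℓ (h.mul_left N)
  have hrN : ¬ r ∣ N := fun h => hrNℓ (h.mul_right ℓ)
  have hrℓ : ¬ ℓ ∣ r := by
    intro h
    have : ℓ = r := (Nat.prime_dvd_prime_iff_eq hℓ hr).mp h
    exact hrNℓ (this ▸ Dvd.intro_left _ rfl)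
  have hrK : (r : K) ≠ 0 := fun h => hrℓ ((CharP.cast_eq_zero_iff K ℓ r).mp h)
  obtain ⟨u, hu⟩ := RHO.exists_unit_of_good hgr
  have hG := hgood r hgr u hu
  have e1 : aK φ g r = φ a := by
    rw [aK, hgf r hr hrN, ← ha, aZ_coe]
  have he' : (((r : ℕ) : ℤ) : ZMod (N * ℓ)) = u := by rw [hu]; simp
  have e2 : (r : K) * ((delta ε ℓ φ u : Kˣ) : K) = φ e := by
    rw [coe_delta ε ℓ φ u he']
    have e3 : epsZ ε ((((r : ℕ) : ℤ)) : ZMod N) = e := by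
      apply Subtype.ext
      rw [coe_epsZ, he]
      simp
    rw [e3]
    have e4 : (((r : ℕ) : ℤ) : K) = (r : K) := by simp
    rw [e4]
    field_simp
  rw [e1, e2] at hG
  exact hG

end Fermat.Agent.S48.G1
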