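import Fermat.Agent.S48.G1.Summable
import Fermat.Agent.S48.G1.Cot

/-!
# G1-Row : `W_v = ∑_m row_v(m)`

* `NZ.mem_integerComplement` : if `(w₀ z + w₁)/ℓ = n` then `w₀ z + (w₁ - ℓ n) = 0`, so `w₀ = 0`, `w₁ = ℓ n` (`linear_ne_zero` or
  imaginary parts), contradiction with `NZ`.
* `tsum_row` : `eisSummand 1 (i v + ℓ ![m,n]) z = (1/ℓ) * 1/(x_i + n)`, `x_i = L(i v + ℓ ![m,0])/ℓ`; `tsum_mul_left`, `tsum_three`
  (summability: `(summable_term ..).comp_injective` for `n ↦ ![m,n]`), `kap_exp`.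
* `W_eq_tsum_row` : `(finTwoArrowEquiv ℤ).symm.tsum_eq`, `Summable.tsum_prod` (as in Mathlib's
  `tsum_eisSummand_eq_tsum_sigma_mul_cexp_pow`).
-/

set_option autoImplicit false

open UpperHalfPlane hiding I
open EisensteinSeries Complex CongruenceSubgroup
open scoped MatrixGroups ModularForm Real Manifold

noncomputable section

namespace Fermat.Agent.S48.G1

local notation "ℂ_ℤ" => integerComplement

theorem NZ.mem_integerComplement {ℓ : ℕ} (hℓ : ℓ ≠ 0) {w : Fin 2 → ℤ} (hw : NZ ℓ w) (z : ℍ) :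
    (((w 0 : ℤ) : ℂ) * z + ((w 1 : ℤ) : ℂ)) / ℓ ∈ ℂ_ℤ := by
  rw [mem_integerComplement_iff]
  rintro ⟨n, hn⟩
  have hℓ' : (ℓ : ℂ) ≠ 0 := by exact_mod_cast hℓ
  rw [eq_div_iff hℓ'] at hn
  by_cases h0 : (![w 0, w 1 - ℓ * n] : Fin 2 → ℤ) = 0
  · apply hw
    have e0 : w 0 = 0 := by simpa using congrFun h0 0
    have e1 : w 1 - ℓ * n = 0 := by simpa using congrFun h0 1
    intro j
    fin_cases j
    · simp [e0]
    · exact ⟨n, by simpa using sub_eq_zero.1 e1⟩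
  · apply sum_lin_ne_zero h0 z
    simp only [Matrix.cons_val_zero, Matrix.cons_val_one]
    push_cast
    linear_combination -hn

/-- the argument of the cotangent. -/
def rowX (ℓ : ℕ) (u : Fin 2 → ℤ) (m : ℤ) (z : ℍ) : ℂ :=
  ((((u + (ℓ : ℤ) • ![m, 0]) 0 : ℤ) : ℂ) * z + (((u + (ℓ : ℤ) • ![m, 0]) 1 : ℤ) : ℂ)) / ℓ

theorem row_eis {ℓ : ℕ} (hℓ : ℓ ≠ 0) (u : Fin 2 → ℤ) (m n : ℤ) (z : ℍ) :
    eisSummand 1 (u + (ℓ : ℤ) • ![m, n]) z = (1 / (ℓ : ℂ)) * (1 / (rowX ℓ u m z + n)) := by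
  have hℓ' : (ℓ : ℂ) ≠ 0 := by exact_mod_cast hℓ
  set L : ℂ := (((u + (ℓ : ℤ) • ![m, n]) 0 : ℤ) : ℂ) * z + (((u + (ℓ : ℤ) • ![m, n]) 1 : ℤ) : ℂ)
    with hL
  have e : rowX ℓ u m z + n = L / ℓ := by
    rw [rowX, hL, eq_div_iff hℓ', add_mul, div_mul_cancel₀ _ hℓ']
    simp only [Pi.add_apply, Pi.smul_apply, smul_eq_mul, Matrix.cons_val_zero,
      Matrix.cons_val_one]
    push_cast
    ring
  rw [e, eisSummand, ← hL, zpow_neg, zpow_one]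
  by_cases h0 : L = 0
  · simp [h0]
  · field_simp

theorem row_kap (ℓ : ℕ) (u : Fin 2 → ℤ) (m : ℤ) (z : ℍ) :
    kap (ex ℓ (u + (ℓ : ℤ) • ![m, 0]) z) = Complex.cot (π * rowX ℓ u m z) := by
  rw [← kap_exp, ex, rowX, mul_div_assoc]

theorem tsum_row {ℓ : ℕ} (hℓ : ℓ.Prime) (h5 : 5 ≤ ℓ) {v : Fin 2 → ℤ} (hv : NZ ℓ v) (z : ℍ) (m : ℤ) :
    ∑' n : ℤ, term ℓ v ![m, n] z = row ℓ v m z := by
  have hℓ0 : ℓ ≠ 0 := hℓ.ne_zero
  have hℓ' : (ℓ : ℂ) ≠ 0 := by exact_mod_cast hℓ0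
  have hnd : ∀ i : ℤ, 0 < i → i < 5 → ¬ (ℓ : ℤ) ∣ i := by
    intro i h0 h1 hd
    have := Int.le_of_dvd h0 hd
    have h5' : (5 : ℤ) ≤ ℓ := by exact_mod_cast h5
    omega
  have m1 : rowX ℓ v m z ∈ ℂ_ℤ := by
    have := hv.smul_add hℓ (hnd 1 (by norm_num) (by norm_num)) ![m, 0]
    rw [one_smul] at this
    exact this.mem_integerComplement hℓ0 z
  have m2 : rowX ℓ ((2 : ℤ) • v) m z ∈ ℂ_ℤ :=
    (hv.smul_add hℓ (hnd 2 (by norm_num) (by norm_num)) ![m, 0]).mem_integerComplement hℓ0 z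
  have m3 : rowX ℓ ((3 : ℤ) • v) m z ∈ ℂ_ℤ :=
    (hv.smul_add hℓ (hnd 3 (by norm_num) (by norm_num)) ![m, 0]).mem_integerComplement hℓ0 z
  have hterm : ∀ n : ℤ, term ℓ v ![m, n] z = (1 / (ℓ : ℂ)) *
      (1 / (rowX ℓ v m z + n) - 2 * (1 / (rowX ℓ ((2 : ℤ) • v) m z + n)) +
        1 / (rowX ℓ ((3 : ℤ) • v) m z + n)) := by
    intro n
    rw [term, row_eis hℓ0, row_eis hℓ0, row_eis hℓ0]
    ring
  have hinj : Function.Injective fun n : ℤ => (![m, n] : Fin 2 → ℤ) := by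
    intro a b hab
    simpa using congrFun hab 1
  have hs0 : Summable fun n : ℤ => term ℓ v ![m, n] z :=
    (summable_term hℓ h5 hv z).comp_injective hinj
  have hs : Summable fun n : ℤ => 1 / (rowX ℓ v m z + n) -
      2 * (1 / (rowX ℓ ((2 : ℤ) • v) m z + n)) + 1 / (rowX ℓ ((3 : ℤ) • v) m z + n) := by
    refine (hs0.mul_left (ℓ : ℂ)).congr fun n => ?_
    rw [hterm, ← mul_assoc, mul_one_div_cancel hℓ', one_mul]
  rw [tsum_congr hterm, tsum_mul_left, tsum_three m1 m2 m3 hs, row, row_kap, row_kap, row_kap]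
  field_simp

theorem W_eq_tsum_row {ℓ : ℕ} (hℓ : ℓ.Prime) (h5 : 5 ≤ ℓ) {v : Fin 2 → ℤ} (hv : NZ ℓ v) (z : ℍ) :
    W ℓ v z = ∑' m : ℤ, row ℓ v m z := by
  have hs : Summable fun p : ℤ × ℤ => term ℓ v ![p.1, p.2] z := by
    refine (finTwoArrowEquiv ℤ).summable_iff.mp <| (summable_term hℓ h5 hv z).congr fun x => ?_
    simp [show ![x 0, x 1] = x from List.ofFn_inj.mp rfl]
  rw [W, ← (finTwoArrowEquiv ℤ).symm.tsum_eq]
  simp only [finTwoArrowEquiv_symm_apply]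
  rw [Summable.tsum_prod hs]
  exact tsum_congr fun m => tsum_row hℓ h5 hv z m

end Fermat.Agent.S48.G1

end
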