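import Fermat.Agent.S48.G1.Slash
import Fermat.Agent.S48.G1.Row

/-!
# G1-Period : `W_v` depends only on `v mod ℓ`

1. `ex ℓ (w + ℓ • ![0,k]) z = ex ℓ w z` (`Complex.exp_periodic` / `exp_int_mul_two_pi_mul_I`), hence
   `row ℓ (v + ℓ • ![0,k]) m z = row ℓ v m z` (the three arguments move by `ℓ • ![0, i k]`), hence by `W_eq_tsum_row`
   `W ℓ (v + ℓ • ![0,k]) = W ℓ v`.
2. `W ℓ u = W ℓ (u ᵥ* S) ∣[1] S⁻¹` (`W_slash`, `SlashAction.slash_mul`, `slash_one`), `(v + ℓ • ![k,0]) ᵥ* S = v ᵥ* S + ℓ • ![0,-k]`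
   (`ModularGroup.S = !![0,-1;1,0]`), so `W ℓ (v + ℓ • ![k,0]) = W ℓ v` by 1.  (`NZ` is preserved by `ᵥ* S`.)
3. combine.
-/

set_option autoImplicit false

open UpperHalfPlane hiding I
open EisensteinSeries Complex CongruenceSubgroup
open scoped MatrixGroups ModularForm Real Manifold

noncomputable section

namespace Fermat.Agent.S48.G1

local notation "ℂ_ℤ" => integerComplement

theorem NZ.congr {ℓ : ℕ} {v v' : Fin 2 → ℤ} (hv : NZ ℓ v) (h : ∀ j, (ℓ : ℤ) ∣ v j - v' j) :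
    NZ ℓ v' := by
  intro h'
  apply hv
  intro j
  have := dvd_add (h j) (h' j)
  simpa using this

/-- `NZ` is preserved by `SL₂(ℤ)`. -/
theorem NZ.vecMul {ℓ : ℕ} {v : Fin 2 → ℤ} (hv : NZ ℓ v) (γ : SL(2, ℤ)) :
    NZ ℓ (Matrix.vecMul v (γ : Matrix (Fin 2) (Fin 2) ℤ)) := by
  intro h
  apply hv
  have e : v = Matrix.vecMul (Matrix.vecMul v (γ : Matrix (Fin 2) (Fin 2) ℤ))
      ((γ⁻¹ : SL(2, ℤ)) : Matrix (Fin 2) (Fin 2) ℤ) := by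
    rw [Matrix.vecMul_vecMul, ← Matrix.SpecialLinearGroup.coe_mul, mul_inv_cancel,
      Matrix.SpecialLinearGroup.coe_one, Matrix.vecMul_one]
  intro j
  rw [e]
  generalize Matrix.vecMul v (γ : Matrix (Fin 2) (Fin 2) ℤ) = u at h
  simp only [Matrix.vecMul, Matrix.vec2_dotProduct]
  exact dvd_add (Dvd.dvd.mul_right (h 0) _) (Dvd.dvd.mul_right (h 1) _)

theorem ex_add {ℓ : ℕ} (hℓ : ℓ ≠ 0) (w : Fin 2 → ℤ) (k : ℤ) (z : ℂ) :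
    ex ℓ (w + (ℓ : ℤ) • ![0, k]) z = ex ℓ w z := by
  unfold ex
  have hℓ' : (ℓ : ℂ) ≠ 0 := by exact_mod_cast hℓ
  have : 2 * π * I * ((((w + (ℓ : ℤ) • ![0, k]) 0 : ℤ) : ℂ) * z
      + (((w + (ℓ : ℤ) • ![0, k]) 1 : ℤ) : ℂ)) / ℓ
      = 2 * π * I * (((w 0 : ℤ) : ℂ) * z + ((w 1 : ℤ) : ℂ)) / ℓ + k * (2 * π * I) := by
    simp
    field_simp
    ring
  rw [this, Complex.exp_add, Complex.exp_int_mul_two_pi_mul_I, mul_one]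

theorem row_add_snd {ℓ : ℕ} (hℓ : ℓ ≠ 0) (v : Fin 2 → ℤ) (k m : ℤ) (z : ℂ) :
    row ℓ (v + (ℓ : ℤ) • ![0, k]) m z = row ℓ v m z := by
  unfold row
  have e1 : v + (ℓ : ℤ) • ![0, k] + (ℓ : ℤ) • ![m, 0] = (v + (ℓ : ℤ) • ![m, 0]) + (ℓ : ℤ) • ![0, k] := by
    abel
  have e2 : (2 : ℤ) • (v + (ℓ : ℤ) • ![0, k]) + (ℓ : ℤ) • ![m, 0]
      = ((2 : ℤ) • v + (ℓ : ℤ) • ![m, 0]) + (ℓ : ℤ) • ![0, 2 * k] := by
    have : (![0, 2 * k] : Fin 2 → ℤ) = (2 : ℤ) • ![0, k] := by simp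
    rw [this]
    module
  have e3 : (3 : ℤ) • (v + (ℓ : ℤ) • ![0, k]) + (ℓ : ℤ) • ![m, 0]
      = ((3 : ℤ) • v + (ℓ : ℤ) • ![m, 0]) + (ℓ : ℤ) • ![0, 3 * k] := by
    have : (![0, 3 * k] : Fin 2 → ℤ) = (3 : ℤ) • ![0, k] := by simp
    rw [this]
    module
  rw [e1, e2, e3, ex_add hℓ, ex_add hℓ, ex_add hℓ]

theorem W_add_snd {ℓ : ℕ} (hℓ : ℓ.Prime) (h5 : 5 ≤ ℓ) {v : Fin 2 → ℤ} (hv : NZ ℓ v) (k : ℤ) :
    W ℓ (v + (ℓ : ℤ) • ![0, k]) = W ℓ v := by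
  have hv' : NZ ℓ (v + (ℓ : ℤ) • ![0, k]) := by
    apply hv.congr
    intro j
    rw [Pi.add_apply, Pi.smul_apply, smul_eq_mul, sub_add_cancel_left]
    exact (Dvd.intro _ rfl).neg_right
  funext z
  rw [W_eq_tsum_row hℓ h5 hv, W_eq_tsum_row hℓ h5 hv']
  exact tsum_congr fun m => row_add_snd hℓ.ne_zero v k m z

theorem W_eq_slash_inv (ℓ : ℕ) (v : Fin 2 → ℤ) (γ : SL(2, ℤ)) :
    W ℓ v = W ℓ (Matrix.vecMul v (γ : Matrix (Fin 2) (Fin 2) ℤ)) ∣[(1 : ℤ)] γ⁻¹ := by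
  rw [← W_slash, ← SlashAction.slash_mul, mul_inv_cancel, SlashAction.slash_one]

theorem W_add_fst {ℓ : ℕ} (hℓ : ℓ.Prime) (h5 : 5 ≤ ℓ) {v : Fin 2 → ℤ} (hv : NZ ℓ v) (k : ℤ) :
    W ℓ (v + (ℓ : ℤ) • ![k, 0]) = W ℓ v := by
  rw [W_eq_slash_inv ℓ (v + (ℓ : ℤ) • ![k, 0]) ModularGroup.S, W_eq_slash_inv ℓ v ModularGroup.S]
  congr 1
  have e : Matrix.vecMul (v + (ℓ : ℤ) • ![k, 0]) (ModularGroup.S : Matrix (Fin 2) (Fin 2) ℤ)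
      = Matrix.vecMul v (ModularGroup.S : Matrix (Fin 2) (Fin 2) ℤ) + (ℓ : ℤ) • ![0, -k] := by
    rw [Matrix.add_vecMul, Matrix.smul_vecMul]
    congr 2
    ext j
    fin_cases j <;> simp [ModularGroup.S, Matrix.vecMul]
  rw [e, W_add_snd hℓ h5 (hv.vecMul _)]

theorem W_congr {ℓ : ℕ} (hℓ : ℓ.Prime) (h5 : 5 ≤ ℓ) {v v' : Fin 2 → ℤ} (hv : NZ ℓ v)
    (h : ∀ j, (ℓ : ℤ) ∣ v j - v' j) : W ℓ v = W ℓ v' := by
  have hv' : NZ ℓ v' := hv.congr h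
  obtain ⟨k0, hk0⟩ := h 0
  obtain ⟨k1, hk1⟩ := h 1
  have e : v = (v' + (ℓ : ℤ) • ![k0, 0]) + (ℓ : ℤ) • ![0, k1] := by
    have : ∀ j, v j = ((v' + (ℓ : ℤ) • ![k0, 0]) + (ℓ : ℤ) • ![0, k1]) j := by
      rw [Fin.forall_fin_two]
      simp only [Pi.add_apply, Pi.smul_apply, smul_eq_mul, Matrix.cons_val_zero,
        Matrix.cons_val_one, Matrix.cons_val_fin_one]
      constructor <;> linarith
    exact funext this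
  have hv'' : NZ ℓ (v' + (ℓ : ℤ) • ![k0, 0]) := by
    apply hv'.congr
    intro j
    rw [Pi.add_apply, Pi.smul_apply, smul_eq_mul, sub_add_cancel_left]
    exact (Dvd.intro _ rfl).neg_right
  rw [e, W_add_snd hℓ h5 hv'', W_add_fst hℓ h5 hv']

end Fermat.Agent.S48.G1

end
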