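import Fermat.Agent.S48.G1.Form
import Fermat.Agent.S48.PER1.FormOps

/-!
# S48 / G1 : the product `c g G_d ∈ S₂(Γ)`, `Γ₁(Nℓ) ≤ Γ ≤ ±Γ₁(Nℓ)`

`g ∈ S₁(Γ₁(N))` with nebentypus `ε`, `G_d = Gf ℓ d ∈ M₁(Γ₁(ℓ))`, `pf c g ℓ d = c g G_d`.
* `pf_slash'`   : `pf c g ℓ d ∣₂ γ = ε(e) pf c g ℓ (d e)` for `γ ∈ Γ₀(Nℓ)` with lower right entry `≡ e`;
* `exists_prod` : `pf c g ℓ d` is a cusp form of weight two on `Γ`;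
* `formD_prod`  : the diamond operators on it;
* `qCoeff_pf`   : its `q`-coefficients.
-/

set_option autoImplicit false

open UpperHalfPlane hiding I
open Complex CongruenceSubgroup ModularForm
open Fermat.Agent.S48.W1 (lr HasChar)
open scoped MatrixGroups ModularForm Manifold

noncomputable section

namespace Fermat.Agent.S48.G1

/-- `c g G_d`. -/
def pf (c : ℂ) (g : ℍ → ℂ) (ℓ : ℕ) (d : ℤ) : ℍ → ℂ := c • (g * Gf ℓ d)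

theorem mem_Gamma0_left {N ℓ : ℕ} {γ : SL(2, ℤ)} (h : γ ∈ Gamma0 (N * ℓ)) : γ ∈ Gamma0 N := by
  rw [Gamma0_mem, ZMod.intCast_zmod_eq_zero_iff_dvd] at h ⊢
  exact dvd_trans (by push_cast; exact Dvd.intro _ rfl) h

theorem mem_Gamma0_right {N ℓ : ℕ} {γ : SL(2, ℤ)} (h : γ ∈ Gamma0 (N * ℓ)) : γ ∈ Gamma0 ℓ := by
  rw [Gamma0_mem, ZMod.intCast_zmod_eq_zero_iff_dvd] at h ⊢
  exact dvd_trans (by push_cast; exact Dvd.intro_left _ rfl) h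

theorem not_dvd_lr {ℓ : ℕ} (hℓ : ℓ.Prime) {γ : SL(2, ℤ)} (hγ : γ ∈ Gamma0 ℓ) :
    ¬ (ℓ : ℤ) ∣ γ 1 1 := by
  intro h
  rw [Gamma0_mem, ZMod.intCast_zmod_eq_zero_iff_dvd] at hγ
  have hdet : γ 0 0 * γ 1 1 - γ 0 1 * γ 1 0 = 1 := by
    have := γ.det_coe
    rwa [Matrix.det_fin_two] at this
  have h1 : (ℓ : ℤ) ∣ 1 := by
    rw [← hdet]
    exact dvd_sub (Dvd.dvd.mul_left h _) (Dvd.dvd.mul_left hγ _)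
  have h2 := Int.le_of_dvd one_pos h1
  have h3 := hℓ.two_le
  omega

theorem pf_slash {N ℓ : ℕ} (hℓ : ℓ.Prime) (h5 : 5 ≤ ℓ) {ε : DirichletCharacter ℂ N} {g : ℍ → ℂ}
    (hg : HasChar N 1 ε g) (c : ℂ) {d : ℤ} (hd : ¬ (ℓ : ℤ) ∣ d) {γ : SL(2, ℤ)}
    (hγ : γ ∈ Gamma0 (N * ℓ)) :
    pf c g ℓ d ∣[(2 : ℤ)] γ = ε (lr N γ) • pf c g ℓ (d * γ 1 1) := by
  unfold pf
  rw [SL_smul_slash, show (2 : ℤ) = 1 + 1 from rfl, mul_slash_SL2, hg γ (mem_Gamma0_left hγ),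
    Gf_slash hℓ h5 hd (mem_Gamma0_right hγ)]
  ext z
  simp only [Pi.smul_apply, Pi.mul_apply, smul_eq_mul]
  ring

theorem pf_slash' {N ℓ : ℕ} (hℓ : ℓ.Prime) (h5 : 5 ≤ ℓ) {ε : DirichletCharacter ℂ N} {g : ℍ → ℂ}
    (hg : HasChar N 1 ε g) (c : ℂ) {d : ℤ} (hd : ¬ (ℓ : ℤ) ∣ d) {γ : SL(2, ℤ)}
    (hγ : γ ∈ Gamma0 (N * ℓ)) {e : ℤ} (he : lr (N * ℓ) γ = (e : ZMod (N * ℓ))) :
    pf c g ℓ d ∣[(2 : ℤ)] γ = ε (e : ZMod N) • pf c g ℓ (d * e) := by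
  have h1 : ((N * ℓ : ℕ) : ℤ) ∣ e - γ 1 1 := (ZMod.intCast_eq_intCast_iff_dvd_sub _ _ _).mp he
  have hN : (N : ℤ) ∣ e - γ 1 1 := dvd_trans (by push_cast; exact Dvd.intro _ rfl) h1
  have hl : (ℓ : ℤ) ∣ e - γ 1 1 := dvd_trans (by push_cast; exact Dvd.intro_left _ rfl) h1
  have h2 : lr N γ = (e : ZMod N) := (ZMod.intCast_eq_intCast_iff_dvd_sub _ _ _).mpr hN
  have hp := Nat.prime_iff_prime_int.mp hℓ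
  have h3 : ¬ (ℓ : ℤ) ∣ d * γ 1 1 := fun h =>
    (hp.dvd_or_dvd h).elim hd (not_dvd_lr hℓ (mem_Gamma0_right hγ))
  have h4 : Gf ℓ (d * γ 1 1) = Gf ℓ (d * e) := by
    apply Gf_congr hℓ h5 h3
    have : d * γ 1 1 - d * e = -(d * (e - γ 1 1)) := by ring
    rw [this]
    exact (Dvd.dvd.mul_left hl d).neg_right
  rw [pf_slash hℓ h5 hg c hd hγ, h2]
  unfold pf
  rw [h4]

theorem slash_two_neg (F : ℍ → ℂ) (γ : SL(2, ℤ)) : F ∣[(2 : ℤ)] (-γ) = F ∣[(2 : ℤ)] γ := by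
  ext z
  rw [SL_slash_apply, SL_slash_apply, ModularGroup.SL_neg_smul]
  congr 1
  have : denom ((-γ : SL(2, ℤ)) : GL (Fin 2) ℝ) z = - denom (γ : GL (Fin 2) ℝ) z := by
    simp [denom]
    ring
  rw [this]
  exact (Even.neg_zpow (by decide : Even (-2 : ℤ)) _)

theorem pf_mdiff {N ℓ : ℕ} (hℓ : ℓ.Prime) (h5 : 5 ≤ ℓ) (g : CuspForm (Gamma1 N) 1) (c : ℂ) {d : ℤ}
    (hd : ¬ (ℓ : ℤ) ∣ d) : MDiff (pf c g ℓ d) :=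
  (g.holo'.mul (Gf_mdiff hℓ h5 hd)).const_smul c

theorem pf_zero {N ℓ : ℕ} [NeZero N] (hℓ : ℓ.Prime) (h5 : 5 ≤ ℓ) (g : CuspForm (Gamma1 N) 1) (c : ℂ)
    {d : ℤ} (hd : ¬ (ℓ : ℤ) ∣ d) (γ : SL(2, ℤ)) : IsZeroAtImInfty (pf c g ℓ d ∣[(2 : ℤ)] γ) := by
  unfold pf
  rw [SL_smul_slash, show (2 : ℤ) = 1 + 1 from rfl, mul_slash_SL2]
  exact ((W1.zero_at g γ).mul_boundedAtFilter (Gf_slash_bdd hℓ h5 hd γ)).smul c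

/-- the product as a cusp form on `Γ₁(Nℓ)`. -/
theorem exists_prod1 {N ℓ : ℕ} [NeZero N] (hℓ : ℓ.Prime) (h5 : 5 ≤ ℓ) {ε : DirichletCharacter ℂ N}
    (g : CuspForm (Gamma1 N) 1) (hg : HasChar N 1 ε g) (c : ℂ) {d : ℤ} (hd : ¬ (ℓ : ℤ) ∣ d) :
    ∃ h : CuspForm (Gamma1 (N * ℓ)) 2, ⇑h = pf c g ℓ d := by
  have : NeZero (N * ℓ) := ⟨mul_ne_zero (NeZero.ne N) hℓ.ne_zero⟩
  refine W1.exists_cuspForm (N * ℓ) _ (pf_mdiff hℓ h5 g c hd) ?_ (pf_zero hℓ h5 g c hd)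
  intro γ hγ
  obtain ⟨h0, h1⟩ := W1.mem_Gamma1_iff.1 hγ
  rw [pf_slash' hℓ h5 hg c hd h0 (e := 1) (by rw [h1, Int.cast_one]), Int.cast_one, map_one,
    one_smul, mul_one]

/-- the product as a cusp form on `Γ`. -/
theorem exists_prod {N ℓ : ℕ} [NeZero N] [NeZero (N * ℓ)] (hℓ : ℓ.Prime) (h5 : 5 ≤ ℓ)
    {ε : DirichletCharacter ℂ N}
    (g : CuspForm (Gamma1 N) 1) (hg : HasChar N 1 ε g) (c : ℂ) {d : ℤ} (hd : ¬ (ℓ : ℤ) ∣ d)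
    (Γ : Subgroup SL(2, ℤ)) [PER1.IsMid (N * ℓ) Γ]
    (hΓ : ∀ γ ∈ Γ, lr (N * ℓ) γ = 1 ∨ lr (N * ℓ) γ = -1) :
    ∃ h : CuspForm Γ 2, ⇑h = pf c g ℓ d := by
  obtain ⟨h1, hh1⟩ := exists_prod1 hℓ h5 g hg c hd
  obtain ⟨h, hh⟩ := PER1.exists_of_invariant (N * ℓ) Γ h1 (by
    intro γ hγ
    have h0 : γ ∈ Gamma0 (N * ℓ) := PER1.IsMid.le0 (N := N * ℓ) hγ
    rcases hΓ γ hγ with h | h
    · exact W1.slash_eq h1 (W1.mem_Gamma1_iff.2 ⟨h0, h⟩)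
    · rw [← slash_two_neg]
      apply W1.slash_eq h1
      rw [W1.mem_Gamma1_iff]
      have e : -γ = (-1 : SL(2, ℤ)) * γ := by simp
      refine ⟨?_, ?_⟩
      · rw [e]
        exact (Gamma0 (N * ℓ)).mul_mem W1.neg_one_mem_Gamma0 h0
      · rw [e, W1.lr_mul W1.neg_one_mem_Gamma0, W1.lr_neg_one, h]
        ring)
  exact ⟨h, hh.trans hh1⟩

/-- the diamond operators on the product. -/
theorem formD_prod {N ℓ : ℕ} [NeZero N] [NeZero (N * ℓ)] (hℓ : ℓ.Prime) (h5 : 5 ≤ ℓ)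
    {ε : DirichletCharacter ℂ N}
    (g : CuspForm (Gamma1 N) 1) (hg : HasChar N 1 ε g) (c : ℂ) {d : ℤ} (hd : ¬ (ℓ : ℤ) ∣ d)
    (Γ : Subgroup SL(2, ℤ)) [PER1.IsMid (N * ℓ) Γ] {h : CuspForm Γ 2} (hh : ⇑h = pf c g ℓ d)
    (u : (ZMod (N * ℓ))ˣ) {e : ℤ} (he : (e : ZMod (N * ℓ)) = u) :
    ⇑(PER1.formD (N * ℓ) Γ u h) = ε (e : ZMod N) • pf c g ℓ (d * e) := by
  rw [PER1.coe_formD (N * ℓ) Γ u h (PER1.rep_mem (N * ℓ) u) (PER1.lr_rep (N * ℓ) u), hh,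
    pf_slash' hℓ h5 hg c hd (PER1.rep_mem (N * ℓ) u) (e := e) (by rw [PER1.lr_rep, he])]

theorem Gf_isNice {ℓ : ℕ} (hℓ : ℓ.Prime) (h5 : 5 ≤ ℓ) {d : ℤ} (hd : ¬ (ℓ : ℤ) ∣ d) :
    S23.IsNice (Gf ℓ d) := by
  obtain ⟨G, hG⟩ := exists_form hℓ h5 hd
  rw [← hG]
  exact S23.isNice_of_modularFormClass (W1.one_mem_strictPeriods ℓ) G

theorem pf_isNice {N ℓ : ℕ} (hℓ : ℓ.Prime) (h5 : 5 ≤ ℓ) (g : CuspForm (Gamma1 N) 1) (c : ℂ) {d : ℤ}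
    (hd : ¬ (ℓ : ℤ) ∣ d) : S23.IsNice (pf c g ℓ d) :=
  S23.niceSub.smul_mem (S23.mem_niceSub.2 ((W1.isNice g).mul (Gf_isNice hℓ h5 hd))) c

/-- the `q`-coefficients of the product. -/
theorem qCoeff_pf {N ℓ : ℕ} (hℓ : ℓ.Prime) (h5 : 5 ≤ ℓ) (g : CuspForm (Gamma1 N) 1) (c : ℂ) {d : ℤ}
    (hd : ¬ (ℓ : ℤ) ∣ d) (n : ℕ) :
    ModularFormClass.qCoeff (pf c g ℓ d) n =
      c * ∑ x ∈ Finset.HasAntidiagonal.antidiagonal n, ModularFormClass.qCoeff g x.1 * cG ℓ d x.2 := by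
  unfold pf
  rw [W1.qCoeff_smul ((W1.isNice g).mul (Gf_isNice hℓ h5 hd))]
  congr 1
  rw [ModularFormClass.qCoeff,
    qExpansion_mul (W1.isNice g).analyticAt (Gf_isNice hℓ h5 hd).analyticAt, PowerSeries.coeff_mul]
  refine Finset.sum_congr rfl (fun x _ => ?_)
  rw [← qCoeff_Gf hℓ h5 hd]
  rfl

end Fermat.Agent.S48.G1

end
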