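import Fermat.Agent.S48.G1.Defs

/-!
# G1-Slash : `W_v ∣₁ γ = W_{vγ}`

Termwise `eisSummand_SL2_apply` (+ `Matrix.add_vecMul`, `Matrix.smul_vecMul`), `tsum_mul_left`, and `Equiv.tsum_eq` for the
bijection `x ↦ x ᵥ* γ` of `ℤ²` (as in Mathlib's `eisensteinSeries_slash_apply`, `gammaSetEquiv`).  No summability needed.
-/

set_option autoImplicit false

open UpperHalfPlane hiding I
open EisensteinSeries Complex CongruenceSubgroup
open scoped MatrixGroups ModularForm Real Manifold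

noncomputable section

namespace Fermat.Agent.S48.G1

local notation "ℂ_ℤ" => integerComplement

theorem W_slash (ℓ : ℕ) (v : Fin 2 → ℤ) (γ : SL(2, ℤ)) :
    W ℓ v ∣[(1 : ℤ)] γ = W ℓ (Matrix.vecMul v (γ : Matrix (Fin 2) (Fin 2) ℤ)) := by
  ext1 z
  rw [ModularForm.SL_slash_apply]
  have hterm : ∀ x, term ℓ v x (γ • z) = denom γ z ^ (1 : ℤ) *
      term ℓ (Matrix.vecMul v (γ : Matrix (Fin 2) (Fin 2) ℤ))
        (Matrix.vecMul x (γ : Matrix (Fin 2) (Fin 2) ℤ)) z := by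
    intro x
    simp only [term, eisSummand_SL2_apply, Matrix.add_vecMul, Matrix.smul_vecMul]
    ring
  let e : (Fin 2 → ℤ) ≃ (Fin 2 → ℤ) :=
    { toFun := fun x => Matrix.vecMul x (γ : Matrix (Fin 2) (Fin 2) ℤ)
      invFun := fun x => Matrix.vecMul x ((γ⁻¹ : SL(2, ℤ)) : Matrix (Fin 2) (Fin 2) ℤ)
      left_inv := fun x => by
        simp_rw [Matrix.vecMul_vecMul, ← Matrix.SpecialLinearGroup.coe_mul, mul_inv_cancel,
          Matrix.SpecialLinearGroup.coe_one, Matrix.vecMul_one]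
      right_inv := fun x => by
        simp_rw [Matrix.vecMul_vecMul, ← Matrix.SpecialLinearGroup.coe_mul, inv_mul_cancel,
          Matrix.SpecialLinearGroup.coe_one, Matrix.vecMul_one] }
  have he := e.tsum_eq (fun x => term ℓ (Matrix.vecMul v (γ : Matrix (Fin 2) (Fin 2) ℤ)) x z)
  unfold W
  simp_rw [hterm, tsum_mul_left]
  have he' : (∑' x : Fin 2 → ℤ, term ℓ (Matrix.vecMul v (γ : Matrix (Fin 2) (Fin 2) ℤ))
      (Matrix.vecMul x (γ : Matrix (Fin 2) (Fin 2) ℤ)) z) =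
      ∑' x : Fin 2 → ℤ, term ℓ (Matrix.vecMul v (γ : Matrix (Fin 2) (Fin 2) ℤ)) x z := he
  rw [he', zpow_one, zpow_neg, zpow_one, mul_comm, ← mul_assoc,
    inv_mul_cancel₀ (denom_ne_zero _ z), one_mul]

end Fermat.Agent.S48.G1

end
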