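import Fermat.Agent.S48.G1.Defs

/-!
# G1-Summable : absolute convergence of `W`

With `A = L(v+ℓx)`, `h = L(v)`: `1/A - 2/(A+h) + 1/(A+2h) = 2h²/(A(A+h)(A+2h))` (all three nonzero: `linear_ne_zero`, `NZ`),
`|1/(ABC)| ≤ (|A|⁻³+|B|⁻³+|C|⁻³)/3` and `EisensteinSeries.summable_norm_eisSummand` (`k = 3`) composed with the injective
maps `x ↦ i v + ℓ x`.
-/

set_option autoImplicit false

open UpperHalfPlane hiding I
open EisensteinSeries Complex CongruenceSubgroup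
open scoped MatrixGroups ModularForm Real Manifold

noncomputable section

namespace Fermat.Agent.S48.G1

local notation "ℂ_ℤ" => integerComplement

theorem NZ.smul_add {ℓ : ℕ} (hℓ : ℓ.Prime) {v : Fin 2 → ℤ} (hv : NZ ℓ v) {i : ℤ}
    (hi : ¬ (ℓ : ℤ) ∣ i) (x : Fin 2 → ℤ) : NZ ℓ (i • v + (ℓ : ℤ) • x) := by
  intro h
  apply hv
  intro j
  have hj := h j
  simp only [Pi.add_apply, Pi.smul_apply, smul_eq_mul] at hj
  have h1 : (ℓ : ℤ) ∣ i * v j := (dvd_add_left (Dvd.intro _ rfl)).1 hj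
  exact ((Nat.prime_iff_prime_int.1 hℓ).dvd_or_dvd h1).resolve_left hi

theorem NZ.ne_zero {ℓ : ℕ} {v : Fin 2 → ℤ} (hv : NZ ℓ v) : v ≠ 0 := by
  rintro rfl
  exact hv fun j => dvd_zero _

theorem sum_lin_ne_zero {w : Fin 2 → ℤ} (hw : w ≠ 0) (z : ℍ) :
    ((w 0 : ℤ) : ℂ) * z + ((w 1 : ℤ) : ℂ) ≠ 0 := by
  have h := linear_ne_zero (cd := fun j => ((w j : ℤ) : ℝ)) z (by
    intro h0
    apply hw
    funext j
    have := congrFun h0 j
    simpa using this)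
  simpa using h

theorem sum_amgm {a b c : ℝ} (ha : 0 ≤ a) (hb : 0 ≤ b) (hc : 0 ≤ c) :
    a * b * c ≤ a ^ 3 + b ^ 3 + c ^ 3 := by
  nlinarith [mul_nonneg (add_nonneg (add_nonneg ha hb) hc)
    (add_nonneg (add_nonneg (sq_nonneg (a - b)) (sq_nonneg (b - c))) (sq_nonneg (c - a))),
    mul_nonneg (mul_nonneg ha hb) hc]

theorem sum_summable_shift {ℓ : ℕ} (hℓ : ℓ ≠ 0) (u : Fin 2 → ℤ) (z : ℍ) :
    Summable fun x : Fin 2 → ℤ => ‖eisSummand 3 (u + (ℓ : ℤ) • x) z‖ := by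
  have hinj : Function.Injective fun x : Fin 2 → ℤ => u + (ℓ : ℤ) • x := by
    intro x y hxy
    have h1 : (ℓ : ℤ) • x = (ℓ : ℤ) • y := add_left_cancel hxy
    funext j
    have h2 := congrFun h1 j
    simp only [Pi.smul_apply, smul_eq_mul] at h2
    exact mul_left_cancel₀ (by exact_mod_cast hℓ) h2
  exact (summable_norm_eisSummand (le_refl 3) z).comp_injective hinj

theorem summable_term {ℓ : ℕ} (hℓ : ℓ.Prime) (h5 : 5 ≤ ℓ) {v : Fin 2 → ℤ} (hv : NZ ℓ v) (z : ℍ) :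
    Summable fun x : Fin 2 → ℤ => term ℓ v x z := by
  have hℓ0 : ℓ ≠ 0 := hℓ.ne_zero
  have hnd : ∀ i : ℤ, 0 < i → i < 5 → ¬ (ℓ : ℤ) ∣ i := by
    intro i h0 h1 hd
    have := Int.le_of_dvd h0 hd
    have h5' : (5 : ℤ) ≤ ℓ := by exact_mod_cast h5
    omega
  set h : ℂ := ((v 0 : ℤ) : ℂ) * z + ((v 1 : ℤ) : ℂ) with hh
  have hbound := (((sum_summable_shift hℓ0 v z).add (sum_summable_shift hℓ0 ((2 : ℤ) • v) z)).add
    (sum_summable_shift hℓ0 ((3 : ℤ) • v) z)).mul_left (2 * ‖h‖ ^ 2)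
  refine Summable.of_norm_bounded hbound fun x => ?_
  set A : ℂ := (((v + (ℓ : ℤ) • x) 0 : ℤ) : ℂ) * z + (((v + (ℓ : ℤ) • x) 1 : ℤ) : ℂ) with hA
  have hA0 : A ≠ 0 := by
    have := hv.smul_add hℓ (hnd 1 (by norm_num) (by norm_num)) x
    rw [one_smul] at this
    exact sum_lin_ne_zero this.ne_zero z
  have hB : ((((2 : ℤ) • v + (ℓ : ℤ) • x) 0 : ℤ) : ℂ) * z + ((((2 : ℤ) • v + (ℓ : ℤ) • x) 1 : ℤ) : ℂ)
      = A + h := by
    rw [hA, hh]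
    simp only [Pi.add_apply, Pi.smul_apply, smul_eq_mul]
    push_cast
    ring
  have hC : ((((3 : ℤ) • v + (ℓ : ℤ) • x) 0 : ℤ) : ℂ) * z + ((((3 : ℤ) • v + (ℓ : ℤ) • x) 1 : ℤ) : ℂ)
      = A + 2 * h := by
    rw [hA, hh]
    simp only [Pi.add_apply, Pi.smul_apply, smul_eq_mul]
    push_cast
    ring
  have hB0 : A + h ≠ 0 := by
    rw [← hB]
    exact sum_lin_ne_zero (hv.smul_add hℓ (hnd 2 (by norm_num) (by norm_num)) x).ne_zero z
  have hC0 : A + 2 * h ≠ 0 := by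
    rw [← hC]
    exact sum_lin_ne_zero (hv.smul_add hℓ (hnd 3 (by norm_num) (by norm_num)) x).ne_zero z
  have e1 : term ℓ v x z = 2 * h ^ 2 * (A⁻¹ * (A + h)⁻¹ * (A + 2 * h)⁻¹) := by
    simp only [term, eisSummand]
    rw [hB, hC, ← hA, zpow_neg, zpow_one, zpow_neg, zpow_one, zpow_neg, zpow_one]
    field_simp
    ring
  have e3 : ∀ w : Fin 2 → ℤ, ‖eisSummand 3 w z‖ =
      ‖(((w 0 : ℤ) : ℂ) * z + ((w 1 : ℤ) : ℂ))⁻¹‖ ^ 3 := by
    intro w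
    simp only [eisSummand]
    rw [← norm_pow, inv_pow, zpow_neg]
    norm_cast
  rw [e1, e3, e3, e3, hB, hC, ← hA, norm_mul, norm_mul, norm_mul, norm_mul, norm_pow]
  have h2 : ‖(2 : ℂ)‖ = 2 := by norm_num
  rw [h2]
  exact mul_le_mul_of_nonneg_left (sum_amgm (norm_nonneg _) (norm_nonneg _) (norm_nonneg _))
    (by positivity)

end Fermat.Agent.S48.G1

end
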